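import Fermat.Agent.H21.Coh.Conj
import Fermat.Agent.H7.DS.Coset
import Fermat.Agent.H29.ES1.Model1
import Fermat.Agent.H20.DS.Interfaces
import Fermat.Prelude.Def_ModularCurve_PeriodMap

/-!
# P-ES1 / block ES1-C (helper21, sub-lead): occurrence of the eigen-system — interfaces

Target of the block: `Fermat.Agent.H29.ES1.J1EigenStatement`.  Definitions and statement-`Prop`s
only.  Everything is written for the group `G1 M = ⟨Γ₁(M), -1⟩` (the group of helper23's model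
`model1 M`).

CONVENTIONS (the same as in `Fermat.Agent.H29.ES1.Interfaces`):
* `diamRep M d ∈ Γ₀(M)` has LOWER RIGHT entry `≡ d`; for `f` with nebentypus `ψ`,
  `f ∣[2] diamRep M d = ψ d • f`.
* `cohD1 M d` : composition with the conjugation `γ ↦ g γ g⁻¹`, `g = diamRep M d`; it corresponds
  to `diamTors M n d` on torsion and to `f ↦ f ∣[2] g` on forms.
* `famT1 M p` : representatives of `Γ₁ \ Γ₁ diag(1,p) Γ₁` (`[[1,j],[0,p]]` and `g_p diag(p,1)`,
  `g_p = diamRep M p`), `cohT1 M p` its transfer: the Hecke operator `T_p`.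
* `famU1 M p = g_p⁻¹ • famT1 M p` : representatives of `Γ₁ \ Γ₁ diag(p,1) Γ₁`, `cohU1 M p` its
  transfer: it corresponds to `heckeTors1` (`= α_* β^*`).  `cohT1 = cohU1 ∘ cohD1 p`.
-/

set_option autoImplicit false

noncomputable section

open CongruenceSubgroup UpperHalfPlane Matrix.SpecialLinearGroup Filter Topology
open ModularCurve ModularCurve.Period AlgebraicCurve
open scoped MatrixGroups ModularForm OnePoint Manifold

namespace Fermat.Agent.H21.Es1C

open Fermat.Agent.H29.ES1 Fermat.Agent.H20.DS Fermat.Agent.H7.DS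

/-! ## The group and the operators on `Hom(G1 M, A)` -/

/-- `⟨Γ₁(M), -1⟩`, the uniformising group of `model1 M`. -/
abbrev G1 (M : ℕ) : Subgroup SL(2, ℤ) := gamma1pm M

/-- The inclusion of `G1 M` into `GL₂(ℝ)`. -/
def g1ToGL (M : ℕ) : ↥(G1 M) →* GL (Fin 2) ℝ := (mapGL ℝ).comp (G1 M).subtype

@[simp] theorem g1ToGL_apply (M : ℕ) (γ : ↥(G1 M)) :
    g1ToGL M γ = mapGL ℝ (γ : SL(2, ℤ)) := rfl

open Classical in
/-- An element of `Γ₀(M)` with lower right entry `≡ d` (and `1` if there is none). -/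
def diamRep (M : ℕ) (d : ZMod M) : SL(2, ℤ) :=
  if h : ∃ g : SL(2, ℤ), g ∈ Gamma0 M ∧ lr M g = d then h.choose else 1

open Classical in
/-- Conjugation by `g` as an endomorphism of `G1 M` (the identity if `g` does not normalise). -/
def conjG1 (M : ℕ) (g : SL(2, ℤ)) : ↥(G1 M) →* ↥(G1 M) :=
  if h : ∀ γ ∈ G1 M, g * γ * g⁻¹ ∈ G1 M then
    { toFun := fun γ => ⟨g * γ * g⁻¹, h γ γ.2⟩
      map_one' := Subtype.ext (by simp)
      map_mul' := fun a b => Subtype.ext (by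
        show g * (a * b : SL(2, ℤ)) * g⁻¹ = (g * a * g⁻¹) * (g * b * g⁻¹)
        group) }
  else MonoidHom.id _

/-- Composition with an endomorphism of the group, as an additive map on `Hom(Γ, A)`. -/
def precompAdd {Γ : Type*} [Group Γ] (J : Γ →* Γ) (A : Type*) [AddCommGroup A] :
    (Additive Γ →+ A) →+ (Additive Γ →+ A) where
  toFun φ := φ.comp (MonoidHom.toAdditive J)
  map_zero' := rfl
  map_add' _ _ := rfl

@[simp] theorem precompAdd_apply {Γ : Type*} [Group Γ] (J : Γ →* Γ) {A : Type*} [AddCommGroup A]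
    (φ : Additive Γ →+ A) (γ : Γ) :
    precompAdd J A φ (Additive.ofMul γ) = φ (Additive.ofMul (J γ)) := rfl

/-- **The diamond operator `⟨d⟩`** on `Hom(G1 M, A)`. -/
def cohD1 (M : ℕ) (d : ZMod M) (A : Type*) [AddCommGroup A] :
    (Additive ↥(G1 M) →+ A) →+ (Additive ↥(G1 M) →+ A) :=
  precompAdd (conjG1 M (diamRep M d)) A

/-- Representatives of `Γ₁(M) \ Γ₁(M) diag(1,p) Γ₁(M)`. -/
def famT1 (M p : ℕ) : OnePoint (ZMod p) → GL (Fin 2) ℝ :=
  heckeRep1 p (diamRep M (p : ZMod M))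

/-- Representatives of `Γ₁(M) \ Γ₁(M) diag(p,1) Γ₁(M)`. -/
def famU1 (M p : ℕ) : OnePoint (ZMod p) → GL (Fin 2) ℝ :=
  fun x => (mapGL ℝ (diamRep M (p : ZMod M)))⁻¹ * famT1 M p x

open Classical in
/-- **The Hecke operator `T_p`** on `Hom(G1 M, A)` : the transfer along `famT1 M p`. -/
def cohT1 (M p : ℕ) [NeZero p] (A : Type*) [AddCommGroup A] :
    (Additive ↥(G1 M) →+ A) →+ (Additive ↥(G1 M) →+ A) :=
  if h : Rewriting (g1ToGL M) (famT1 M p) then h.transfer A else 0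

open Classical in
/-- **The operator `U_p = α_* β^*`** on `Hom(G1 M, A)` : the transfer along `famU1 M p`. -/
def cohU1 (M p : ℕ) [NeZero p] (A : Type*) [AddCommGroup A] :
    (Additive ↥(G1 M) →+ A) →+ (Additive ↥(G1 M) →+ A) :=
  if h : Rewriting (g1ToGL M) (famU1 M p) then h.transfer A else 0

/-- The primes not dividing `M`. -/
abbrev PrimesAway (M : ℕ) : Type := {p : ℕ // p.Prime ∧ ¬ p ∣ M}

instance instNeZeroPrimesAway (M : ℕ) (p : PrimesAway M) : NeZero (p : ℕ) := ⟨p.2.1.ne_zero⟩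

/-! ## PER1 : the period map of `S₂(Γ₁(M))` -/

/-- `F` is the decaying equivariant primitive of the cusp form `f` (twin of the prelude's
`ModularCurve.HasEquivariantPrimitive`). -/
def HasEqPrim1 (M : ℕ) (f : CuspForm (Gamma1 M) 2) (F : ℍ → ℂ) : Prop :=
  (∀ τ : ℍ, HasDerivAt (F ∘ ofComplex) (f τ) ↑τ) ∧
    Tendsto F atImInfty (𝓝 0) ∧
    IsEquivariantPrimitive (G1 M) F ∧
    ∀ δ : SL(2, ℤ), ∃ L : ℂ, Tendsto (fun w : ℍ => F (δ • w)) atImInfty (𝓝 L)

open Classical in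
/-- **The period map** `S₂(Γ₁(M)) → Hom(G1 M, ℂ)`, `f ↦ (γ ↦ ∫_z^{γ z} f)`. -/
def periodMap1 (M : ℕ) (f : CuspForm (Gamma1 M) 2) : Additive ↥(G1 M) →+ ℂ :=
  if h : ∃ F : ℍ → ℂ, HasEqPrim1 M f F then h.choose_spec.2.2.1.periodHom else 0

/-- **PER1-A.**  Existence of the decaying equivariant primitive (port of `H63.S21A`). -/
def ExistsPrimitive1Statement : Prop :=
  ∀ (M : ℕ) [NeZero M] (f : CuspForm (Gamma1 M) 2), ∃ F : ℍ → ℂ, HasEqPrim1 M f F

/-- **PER1-B (1).**  The period map is `ℂ`-linear (port of `H31.PeriodBasic`). -/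
def PeriodLinear1Statement : Prop :=
  ∀ (M : ℕ) [NeZero M] (f g : CuspForm (Gamma1 M) 2) (c : ℂ),
    periodMap1 M (f + g) = periodMap1 M f + periodMap1 M g ∧
    periodMap1 M (c • f) = c • periodMap1 M f

/-- **PER1-B (2).**  Periods of cusp forms vanish on parabolic elements (port of
`H97.ParabolicPeriod`). -/
def PeriodParabolic1Statement : Prop :=
  ∀ (M : ℕ) [NeZero M] (f : CuspForm (Gamma1 M) 2), IsParabolicHom (G1 M) (periodMap1 M f)

/-- **PER1-B (3).**  The transfer formula (port of `H57.periodMap_transfer`; NO hypothesis on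
the behaviour at `i∞`: `∑ x, F ∘ α x` differs from the decaying primitive by a constant). -/
def PeriodTransfer1Statement : Prop :=
  ∀ (M : ℕ) [NeZero M] (X : Type) [Fintype X] (α : X → GL (Fin 2) ℝ),
    (∀ x, 0 < (α x).det.val) →
    ∀ (f f' : CuspForm (Gamma1 M) 2),
      (∀ τ : ℍ, f' τ = ∑ x, ((f : ℍ → ℂ) ∣[(2 : ℤ)] α x) τ) →
      ∀ (γ : ↥(G1 M)) (σ : Equiv.Perm X) (κ : X → ↥(G1 M)),
        (∀ x, α x * mapGL ℝ (γ : SL(2, ℤ)) = mapGL ℝ ((κ x : ↥(G1 M)) : SL(2, ℤ)) * α (σ x)) →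
        periodMap1 M f' (Additive.ofMul γ) = ∑ x, periodMap1 M f (Additive.ofMul (κ x))

/-- **PER1-INJ.**  The period map is injective (port of `H31.PeriodInjective`,
`H31.MaxPrinciple`). -/
def PeriodInjective1Statement : Prop :=
  ∀ (M : ℕ) [NeZero M] (f : CuspForm (Gamma1 M) 2), periodMap1 M f = 0 → f = 0

/-! ## FORMS : the Hecke algebra of the `ψ`-part and the eigen-system modulo `φ` -/

/-- **FORMS** (deputy helper6).  For a form `h` which is an eigenform modulo `φ`: a subspace `V`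
of `S₂(Γ₁(M))` containing `h`, a commutative ring `T` acting on `V`, generated by elements `tp p`
(`p ∤ M` prime) acting as the Hecke operator `T_p` (sum of the slashes by `famT1 M p`) and `td d`
acting as the diamond operator (slash by `diamRep M d`), and a ring homomorphism `θ : T → k` with
`θ (tp p) = abar p`, `θ (td d) = ψ d mod φ` which vanishes on the annihilator of `h`.

(`V` = forms with nebentypus `ψ`; `T = MvPolynomial _ ℤ`; `θ t = φ (a₁ (t h))`, using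
`a_n (T_p f) = a_{pn} f + p ψ(p) a_{n/p} f` on `V`.) -/
def FormsSideStatement : Prop :=
  ∀ (M : ℕ) [NeZero M], 5 ≤ M →
    ∀ (ψ : DirichletCharacter ℂ M) (h : CuspForm (Gamma1 M) 2) (ℓ : ℕ), ℓ.Prime →
    ∀ (k : Type) [Field k] [CharP k ℓ] (φ : Zbar →+* k) (abar dbar : ℕ → k),
      IsModEigen ψ h φ abar dbar →
      ∃ (V : Submodule ℂ (CuspForm (Gamma1 M) 2)) (hh : h ∈ V) (T : Type) (_ : CommRing T)
        (ρ : T →+* Module.End ℂ V) (tp : PrimesAway M → T) (td : (ZMod M)ˣ → T) (θ : T →+* k),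
        Subring.closure (Set.range tp ∪ Set.range td) = ⊤ ∧
        (∀ (p : PrimesAway M) (f : V) (z : ℍ),
          ((ρ (tp p) f : V) : CuspForm (Gamma1 M) 2) z
            = ∑ x : OnePoint (ZMod (p : ℕ)),
                (((f : CuspForm (Gamma1 M) 2) : ℍ → ℂ) ∣[(2 : ℤ)] famT1 M p x) z) ∧
        (∀ (d : (ZMod M)ˣ) (f : V) (z : ℍ),
          ((ρ (td d) f : V) : CuspForm (Gamma1 M) 2) z
            = (((f : CuspForm (Gamma1 M) 2) : ℍ → ℂ)
                ∣[(2 : ℤ)] mapGL ℝ (diamRep M (d : ZMod M))) z) ∧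
        (∀ p : PrimesAway M, θ (tp p) = abar p) ∧
        (∀ d : (ZMod M)ˣ, Red φ (ψ (d : ZMod M)) (θ (td d))) ∧
        (∀ t : T, ρ t ⟨h, hh⟩ = 0 → θ t = 0)

/-! ## COH-EIG1 : the eigen-system occurs in `Hom(G1 M, k)` -/

/-- **COH-EIG1** (assembly: PER1 + FORMS + `H12.thetaEigen`).  The eigen-system of `h` modulo
`φ` occurs in `Hom(G1 M, k)`, on a class vanishing on parabolic elements and on elements of
finite order. -/
def CohEigen1Statement : Prop :=
  ∀ (M : ℕ) [NeZero M], 5 ≤ M →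
    ∀ (ψ : DirichletCharacter ℂ M) (h : CuspForm (Gamma1 M) 2) (ℓ : ℕ), ℓ.Prime →
    ∀ (k : Type) [Field k] [CharP k ℓ] (φ : Zbar →+* k) (abar dbar : ℕ → k),
      IsModEigen ψ h φ abar dbar →
      ∃ w : Additive ↥(G1 M) →+ k, w ≠ 0 ∧ IsParabolicHom (G1 M) w ∧
        (∀ γ : ↥(G1 M), IsOfFinOrder γ → w (Additive.ofMul γ) = 0) ∧
        (∀ p : PrimesAway M, cohT1 M p k w = abar p • w) ∧
        (∀ d : (ZMod M)ˣ, ∃ e : k, Red φ (ψ (d : ZMod M)) e ∧ cohD1 M (d : ZMod M) k w = e • w)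

/-! ## KUM1 : Hecke and diamond equivariance of the Kummer characters over `ℂ` -/

/-- The transfer `cohU1` on multiplicative characters. -/
def cohU1Char (M p : ℕ) [NeZero p] (χ : ↥(G1 M) →* ℂˣ) : ↥(G1 M) →* ℂˣ :=
  MonoidHom.toAdditive.symm (cohU1 M p (Additive ℂˣ) (MonoidHom.toAdditive χ))

/-- The diamond operator on multiplicative characters. -/
def cohD1Char (M : ℕ) (d : ZMod M) (χ : ↥(G1 M) →* ℂˣ) : ↥(G1 M) →* ℂˣ :=
  χ.comp (conjG1 M (diamRep M d))

/-- The product of the translates of a function on `ℍ` by the representatives `famU1 M p`. -/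
def heckeProdU1 (M p : ℕ) [NeZero p] (F : ℍ → ℂ) : ℍ → ℂ :=
  fun z => ∏ x : OnePoint (ZMod p), F (famU1 M p x • z)

/-- **KUM1-NORM** (analytic heart, twin of `H21.EsC.NormRepStatement`).  If the holomorphic
function `F` represents `f ∈ F1C M`, then the product of its translates by `famU1 M p` represents
the norm of `β f = f(q^p)` along `α`. -/
def NormRep1Statement : Prop :=
  ∀ (M : ℕ) [NeZero M], 5 ≤ M → ∀ (p : ℕ) [NeZero p], p.Prime → ¬ p ∣ M →
    ∀ (f : ↥(F1C M)) (F : ℍ → ℂ), MDiff F →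
      Fermat.Agent.H23.ES1A.Rep (model1 M) F f →
      Fermat.Agent.H23.ES1A.Rep (model1 M) (heckeProdU1 M p F)
        (letI := algebraAlong (alphaGen ℂ (F1 M) p)
         Algebra.norm ↥(F1C M) (betaGen ℂ (F1 M) p f))

/-- **KUM1-HECKE** (twin of `H21.EsC.KummerHeckeStatement`).  The torsion–character relation of
`model1 M` intertwines `heckeOperatorGen ℂ (F1 M) p = α_* β^*` with `cohU1`. -/
def KummerHecke1Statement : Prop :=
  ∀ (M : ℕ) [NeZero M], 5 ≤ M → ∀ (p : ℕ) [NeZero p], p.Prime → ¬ p ∣ M →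
    ∀ (m : ℕ), 0 < m → ∀ (x : Pic0 ℂ ↥(F1C M)) (χ : ↥(G1 M) →* ℂˣ),
      Fermat.Agent.H23.ES1A.TorsionCharRel (model1 M) m x χ →
      Fermat.Agent.H23.ES1A.TorsionCharRel (model1 M) m (heckeOperatorGen ℂ (F1 M) p x)
        (cohU1Char M p χ)

/-- **KUM1-DIAM-REP.**  If `F` represents `f ∈ F1C M` then `F ∘ g`, `g = diamRep M d`,
represents `aut d⁻¹ f` (`aut = diamondAut ℂ M`; `g` has upper left entry `≡ d⁻¹`). -/
def DiamondRep1Statement : Prop :=
  ∀ (M : ℕ) [NeZero M], 5 ≤ M → ∀ (d : (ZMod M)ˣ) (f : ↥(F1C M)) (F : ℍ → ℂ), MDiff F →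
    Fermat.Agent.H23.ES1A.Rep (model1 M) F f →
    Fermat.Agent.H23.ES1A.Rep (model1 M) (fun z => F (diamRep M (d : ZMod M) • z))
      (diamondAut ℂ M d⁻¹ f)

/-- **KUM1-DIAM.**  The torsion–character relation intertwines the action of the diamond
automorphism `aut d⁻¹` on `Pic⁰(F1C M)` with `cohD1Char d`. -/
def KummerDiamond1Statement : Prop :=
  ∀ (M : ℕ) [NeZero M], 5 ≤ M → ∀ (d : (ZMod M)ˣ) (m : ℕ), 0 < m →
    ∀ (x : Pic0 ℂ ↥(F1C M)) (χ : ↥(G1 M) →* ℂˣ),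
      Fermat.Agent.H23.ES1A.TorsionCharRel (model1 M) m x χ →
      Fermat.Agent.H23.ES1A.TorsionCharRel (model1 M) m
        (SemilinearAut.ofAlgAut (diamondAut ℂ M d⁻¹) • x) (cohD1Char M (d : ZMod M) χ)

/-! ## BRIDGE1 : from `Hom(G1 M, ℤ/ℓ)` to `J₁(M)(ℚ̄)[ℓ]` -/

/-- The parabolic elements and the elements of finite order of `G1 M`. -/
def parEllSet1 (M : ℕ) : Set ↥(G1 M) :=
  {γ | ((γ : SL(2, ℤ)) : Matrix (Fin 2) (Fin 2) ℤ).trace ^ 2 = 4 ∨ IsOfFinOrder γ}

/-- The group `V_n` of homomorphisms `G1 M → ℤ/n` vanishing on parabolic elements and on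
elements of finite order. -/
def parEllHoms1 (M n : ℕ) : AddSubgroup (Additive ↥(G1 M) →+ ZMod n) where
  carrier := {χ | ∀ γ ∈ parEllSet1 M, χ (Additive.ofMul γ) = 0}
  zero_mem' := fun _ _ => rfl
  add_mem' := by
    intro φ ψ hφ hψ γ hγ
    show φ (Additive.ofMul γ) + ψ (Additive.ofMul γ) = 0
    rw [hφ γ hγ, hψ γ hγ, add_zero]
  neg_mem' := by
    intro φ hφ γ hγ
    show - φ (Additive.ofMul γ) = 0
    rw [hφ γ hγ, neg_zero]

/-- **ES1-B input** (helper29).  Descent `J₁(M)(ℚ̄) → Pic⁰(F1C M)`: injective, onto the torsion,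
compatible with `α_* β^*` on torsion classes and with the diamond automorphisms. -/
def Descent1Statement : Prop :=
  ∀ (M : ℕ) [NeZero M], 5 ≤ M →
    ∃ φ : J1 M →+ Pic0 ℂ ↥(F1C M), Function.Injective φ ∧
      (∀ (m : ℕ), 0 < m → ∀ z : Pic0 ℂ ↥(F1C M), m • z = 0 → ∃ z₀ : J1 M, φ z₀ = z) ∧
      (∀ (p : ℕ) [NeZero p], p.Prime → ¬ p ∣ M → ∀ (m : ℕ), 0 < m → ∀ x : J1 M, m • x = 0 →
        φ (heckeOperatorGen (AlgebraicClosure ℚ) (F1 M) p x)
          = heckeOperatorGen ℂ (F1 M) p (φ x)) ∧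
      (∀ (d : (ZMod M)ˣ) (x : J1 M),
        φ (SemilinearAut.ofAlgAut (diamondAut (AlgebraicClosure ℚ) M d) • x)
          = SemilinearAut.ofAlgAut (diamondAut ℂ M d) • φ x)

/-- **BRIDGE1.**  For every `n > 0` an injective additive map `V_n → J₁(M)(ℚ̄)`, with values in
the `n`-torsion, intertwining `cohU1 p` with `α_* β^*` and `cohD1 d` with the action of
`aut d⁻¹`. -/
def KummerBridge1Statement : Prop :=
  ∀ (M : ℕ) [NeZero M], 5 ≤ M → ∀ (n : ℕ), 0 < n →
    ∃ E : parEllHoms1 M n →+ J1 M, Function.Injective E ∧ (∀ χ, n • E χ = 0) ∧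
      (∀ (p : ℕ) [NeZero p], p.Prime → ¬ p ∣ M → ∀ χ χ' : parEllHoms1 M n,
        (χ' : Additive ↥(G1 M) →+ ZMod n) = cohU1 M p (ZMod n) χ →
          E χ' = heckeOperatorGen (AlgebraicClosure ℚ) (F1 M) p (E χ)) ∧
      (∀ (d : (ZMod M)ˣ) (χ χ' : parEllHoms1 M n),
        (χ' : Additive ↥(G1 M) →+ ZMod n) = cohD1 M (d : ZMod M) (ZMod n) χ →
          E χ' = SemilinearAut.ofAlgAut (diamondAut (AlgebraicClosure ℚ) M d⁻¹) • E χ)

end Fermat.Agent.H21.Es1C

end
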