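import Fermat.Agent.H21.Es1C.Coh1
import Fermat.Agent.H21.EsC.QEigFinal
import Fermat.Agent.H23.ES1A.Unconditional

/-!
# P-ES1 / ES1-C / BRIDGE1 (helper21): from `Hom(G1 M, ℤ/n)` to `J₁(M)(ℚ̄)[n]`

`kummerBridge1_of_parts : Model1Statement → KummerHecke1Statement → KummerDiamond1Statement →
  Descent1Statement → KummerBridge1Statement`.
-/

set_option autoImplicit false

noncomputable section

open ModularCurve ModularCurve.Period AlgebraicCurve CongruenceSubgroup TensorProduct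
open scoped MatrixGroups

namespace Fermat.Agent.H21.Es1C

open Fermat.Agent.H29.ES1 Fermat.Agent.H21 Fermat.Agent.H21.EsC

/-! ## Elements of small trace -/

theorem g1_isOfFinOrder_of_trace {M : ℕ} (γ : ↥(G1 M))
    (h : ((γ : SL(2, ℤ)) 0 0 + (γ : SL(2, ℤ)) 1 1) ^ 2 < 4) : IsOfFinOrder γ := by
  refine isOfFinOrder_iff_pow_eq_one.mpr ⟨12, by norm_num, ?_⟩
  apply Subtype.ext
  rw [Subgroup.coe_pow, sl2_pow_twelve_eq_one _ h]
  rfl

/-! ## From classes mod `n` to characters -/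

section chars

variable (n : ℕ) [NeZero n] (M : ℕ)

/-- The character `ζ^χ` of a class `χ : G1 M → ℤ/n`. -/
def charOf1 (χ : Additive ↥(G1 M) →+ ZMod n) : ↥(G1 M) →* ℂˣ :=
  MonoidHom.toAdditive.symm ((expZ n).comp χ)

theorem charOf1_apply (χ : Additive ↥(G1 M) →+ ZMod n) (γ : ↥(G1 M)) :
    charOf1 n M χ γ = Additive.toMul (expZ n (χ (Additive.ofMul γ))) := rfl

theorem charOf1_add (χ χ' : Additive ↥(G1 M) →+ ZMod n) :
    charOf1 n M (χ + χ') = charOf1 n M χ * charOf1 n M χ' := by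
  refine MonoidHom.ext fun γ => ?_
  rw [MonoidHom.mul_apply, charOf1_apply, charOf1_apply, charOf1_apply, AddMonoidHom.add_apply,
    map_add]
  rfl

theorem charOf1_injective : Function.Injective (charOf1 n M) := by
  intro χ χ' h
  refine AddMonoidHom.ext fun γ => ?_
  apply expZ_injective n
  have := DFunLike.congr_fun h (Additive.toMul γ)
  rw [charOf1_apply, charOf1_apply] at this
  exact this

theorem charOf1_pow (χ : Additive ↥(G1 M) →+ ZMod n) : charOf1 n M χ ^ n = 1 := by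
  refine MonoidHom.ext fun γ => ?_
  rw [MonoidHom.pow_apply, charOf1_apply, MonoidHom.one_apply]
  have := nsmul_expZ n (χ (Additive.ofMul γ))
  exact congrArg Additive.toMul this

theorem charOf1_isParEllTrivialSq [NeZero M] (χ : Additive ↥(G1 M) →+ ZMod n)
    (hχ : χ ∈ parEllHoms1 M n) :
    Fermat.Agent.H23.ES1A.IsParEllTrivialSq (X := model1 M) (charOf1 n M χ) := by
  intro γ hγ
  rw [Fermat.Agent.H23.ES1A.trZ_eq] at hγ
  have h0 : χ (Additive.ofMul (γ : ↥(G1 M))) = 0 := by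
    rcases lt_or_eq_of_le hγ with h | h
    · exact hχ γ (Or.inr (g1_isOfFinOrder_of_trace γ h))
    · refine hχ γ (Or.inl ?_)
      rw [Matrix.trace_fin_two]
      exact h
  show charOf1 n M χ γ = 1
  rw [charOf1_apply, h0, map_zero]
  rfl

theorem charOf1_mem [NeZero M] (χ : parEllHoms1 M n) :
    charOf1 n M (χ : Additive ↥(G1 M) →+ ZMod n)
      ∈ Fermat.Agent.H23.ES1A.kummerChars (model1 M) n :=
  ⟨charOf1_isParEllTrivialSq n M χ χ.2, charOf1_pow n M χ⟩

theorem cohU1Char_charOf1 [NeZero M] (p : ℕ) [Fact p.Prime] (hpM : ¬ p ∣ M)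
    (χ : Additive ↥(G1 M) →+ ZMod n) :
    haveI : NeZero p := ⟨(Fact.out : p.Prime).ne_zero⟩
    cohU1Char M p (charOf1 n M χ) = charOf1 n M (cohU1 M p (ZMod n) χ) := by
  unfold cohU1Char charOf1
  rw [Equiv.apply_symm_apply, cohU1_comp M p hpM]

theorem cohD1Char_charOf1 (d : ZMod M) (χ : Additive ↥(G1 M) →+ ZMod n) :
    cohD1Char M d (charOf1 n M χ) = charOf1 n M (cohD1 M d (ZMod n) χ) := rfl

end chars

/-! ## The complex bridge -/

/-- The complex Kummer bridge for `model1 M`. -/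
theorem exists_kummerBridge1C (hMod : Model1Statement) (hKH : KummerHecke1Statement)
    (hKD : KummerDiamond1Statement) (M : ℕ) [NeZero M] (hM : 5 ≤ M) {n : ℕ} (hn : 0 < n) :
    ∃ E : parEllHoms1 M n →+ Pic0 ℂ ↥(F1C M),
      Function.Injective E ∧ (∀ χ, n • E χ = 0) ∧
      (∀ (p : ℕ) [NeZero p], p.Prime → ¬ p ∣ M → ∀ χ χ' : parEllHoms1 M n,
        (χ' : Additive ↥(G1 M) →+ ZMod n) = cohU1 M p (ZMod n) χ →
          E χ' = heckeOperatorGen ℂ (F1 M) p (E χ)) ∧
      (∀ (d : (ZMod M)ˣ) (χ χ' : parEllHoms1 M n),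
        (χ' : Additive ↥(G1 M) →+ ZMod n) = cohD1 M (d : ZMod M) (ZMod n) χ →
          E χ' = SemilinearAut.ofAlgAut (diamondAut ℂ M d⁻¹) • E χ) := by
  haveI : NeZero n := ⟨hn.ne'⟩
  have hX := hMod M hM
  obtain ⟨e, he, hemul⟩ := Fermat.Agent.H23.ES1A.exists_torsion_equiv (model1 M) hX hn
  obtain ⟨-, huniq, hadm, -, -, -⟩ :=
    Fermat.Agent.H23.ES1A.torsionCharStatement (model1 M) hX n hn
  -- uniqueness of the class with a given character
  have hclass : ∀ (x x' : Pic0 ℂ ↥(F1C M)) (χ₀ : ↥(G1 M) →* ℂˣ),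
      Fermat.Agent.H23.ES1A.TorsionCharRel (model1 M) n x χ₀ →
      Fermat.Agent.H23.ES1A.TorsionCharRel (model1 M) n x' χ₀ → x = x' := by
    intro x x' χ₀ hx hx'
    have hxt := (hadm x χ₀ hx).1
    have hxt' := (hadm x' χ₀ hx').1
    have h1 : (e ⟨x, hxt⟩).1 = χ₀ := huniq x _ _ (he ⟨x, hxt⟩) hx
    have h2 : (e ⟨x', hxt'⟩).1 = χ₀ := huniq x' _ _ (he ⟨x', hxt'⟩) hx'
    have h3 : e ⟨x, hxt⟩ = e ⟨x', hxt'⟩ := Subtype.ext (h1.trans h2.symm)
    exact congrArg Subtype.val (e.injective h3)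
  let X : parEllHoms1 M n → ↥(Fermat.Agent.H23.ES1A.kummerChars (model1 M) n) :=
    fun χ => ⟨charOf1 n M (χ : Additive ↥(G1 M) →+ ZMod n), charOf1_mem n M χ⟩
  let E₀ : parEllHoms1 M n → Pic0 ℂ ↥(F1C M) :=
    fun χ => (e.symm (X χ)).1
  have hrel : ∀ χ : parEllHoms1 M n, Fermat.Agent.H23.ES1A.TorsionCharRel (model1 M) n (E₀ χ)
      (charOf1 n M (χ : Additive ↥(G1 M) →+ ZMod n)) := by
    intro χ
    have := he (e.symm (X χ))
    rw [e.apply_symm_apply] at this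
    exact this
  have hXadd : ∀ χ χ' : parEllHoms1 M n, X (χ + χ') = X χ * X χ' := by
    intro χ χ'
    apply Subtype.ext
    exact charOf1_add n M _ _
  have hadd : ∀ χ χ', E₀ (χ + χ') = E₀ χ + E₀ χ' := by
    intro χ χ'
    show (e.symm (X (χ + χ'))).1 = (e.symm (X χ) + e.symm (X χ')).1
    congr 1
    apply e.injective
    rw [e.apply_symm_apply, hemul, e.apply_symm_apply, e.apply_symm_apply, hXadd]
  have hzero : E₀ 0 = 0 := by
    have := hadd 0 0
    rw [add_zero] at this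
    exact left_eq_add.mp this
  refine ⟨⟨⟨E₀, hzero⟩, hadd⟩, ?_, ?_, ?_, ?_⟩
  · intro χ χ' h
    have h1 : e.symm (X χ) = e.symm (X χ') := Subtype.ext h
    have h2 : X χ = X χ' := e.symm.injective h1
    have h3 : charOf1 n M (χ : Additive ↥(G1 M) →+ ZMod n)
        = charOf1 n M (χ' : Additive ↥(G1 M) →+ ZMod n) := congrArg Subtype.val h2
    exact Subtype.ext (charOf1_injective n M h3)
  · intro χ
    have := (e.symm (X χ)).2
    rw [Pic0.mem_torsion, natCast_zsmul] at this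
    exact this
  · intro p _ hp hpM χ χ' hχ'
    haveI : Fact p.Prime := ⟨hp⟩
    show E₀ χ' = heckeOperatorGen ℂ (F1 M) p (E₀ χ)
    have h1 := hKH M hM p hp hpM n hn (E₀ χ) _ (hrel χ)
    rw [cohU1Char_charOf1 n M p hpM, ← hχ'] at h1
    exact hclass _ _ _ (hrel χ') h1
  · intro d χ χ' hχ'
    show E₀ χ' = SemilinearAut.ofAlgAut (diamondAut ℂ M d⁻¹) • E₀ χ
    have h1 := hKD M hM d n hn (E₀ χ) _ (hrel χ)
    rw [cohD1Char_charOf1, ← hχ'] at h1
    exact hclass _ _ _ (hrel χ') h1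

/-! ## The bridge -/

/-- **BRIDGE1** from its parts. -/
theorem kummerBridge1_of_parts (hMod : Model1Statement) (hKH : KummerHecke1Statement)
    (hKD : KummerDiamond1Statement) (hDesc : Descent1Statement) : KummerBridge1Statement := by
  intro M _ hM n hn
  obtain ⟨E₁, hE₁inj, hE₁tors, hE₁hecke, hE₁diam⟩ := exists_kummerBridge1C hMod hKH hKD M hM hn
  obtain ⟨φ, hφinj, hφsurj, hφhecke, hφdiam⟩ := hDesc M hM
  have hex : ∀ χ : parEllHoms1 M n, ∃ z₀ : J1 M, φ z₀ = E₁ χ :=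
    fun χ => hφsurj n hn (E₁ χ) (hE₁tors χ)
  choose e he using hex
  have hadd : ∀ χ χ', e (χ + χ') = e χ + e χ' := by
    intro χ χ'
    apply hφinj
    rw [map_add, he, he, he, map_add]
  have hzero : e 0 = 0 := by
    apply hφinj
    rw [he, map_zero, map_zero]
  have htors : ∀ χ, n • e χ = 0 := by
    intro χ
    apply hφinj
    rw [map_nsmul, he, hE₁tors, map_zero]
  refine ⟨⟨⟨e, hzero⟩, hadd⟩, ?_, htors, ?_, ?_⟩
  · intro χ χ' h
    apply hE₁inj
    have h' : e χ = e χ' := h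
    rw [← he χ, ← he χ', h']
  · intro p _ hp hpM χ χ' hχ'
    apply hφinj
    show φ (e χ') = φ (heckeOperatorGen (AlgebraicClosure ℚ) (F1 M) p (e χ))
    rw [he, hφhecke p hp hpM n hn (e χ) (htors χ), he, hE₁hecke p hp hpM χ χ' hχ']
  · intro d χ χ' hχ'
    apply hφinj
    show φ (e χ')
      = φ (SemilinearAut.ofAlgAut (diamondAut (AlgebraicClosure ℚ) M d⁻¹) • e χ)
    rw [he, hφdiam d⁻¹ (e χ), he, hE₁diam d χ χ' hχ']

end Fermat.Agent.H21.Es1C

end
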