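import Fermat.Agent.H21.Es1C.Interfaces
import Fermat.Agent.H21.Coh.Hecke

/-!
# P-ES1 / ES1-C / COH1 (helper21): the operators `cohT1`, `cohU1`, `cohD1` on `Hom(G1 M, A)`

* `exists_diamRep`, `diamRep_mem`, `lr_diamRep`, `lr_diamRep_prime` : the diamond representatives.
* `mem_G1_iff`, `conj_mem_G1`, `conjG1_coe` : the group `G1 M = ⟨Γ₁(M), -1⟩`.
* `rewritingT1`, `rewritingU1` : rewriting data for `famT1 M p`, `famU1 M p`.
* `cohT1_eq_transfer`, `cohU1_eq_transfer`, `cohT1_eq_cohU1_cohD1` (`T_p = U_p ∘ ⟨p⟩`).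
* naturality in the coefficient group and preservation of the vanishing on parabolic elements
  and on elements of finite order.
-/

set_option autoImplicit false

noncomputable section

open CongruenceSubgroup UpperHalfPlane Matrix.SpecialLinearGroup
open ModularCurve ModularCurve.Period
open scoped MatrixGroups OnePoint
open P2MW.S_ModularForm_heckeT_slash_eq_self_of_mem_Gamma0.ModularForm.HeckeSlashInvariance

namespace Fermat.Agent.H21.Es1C

open Fermat.Agent.H29.ES1 Fermat.Agent.H7.DS Fermat.Agent.H21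

/-! ## Diamond representatives -/

theorem exists_diamRep (M : ℕ) [NeZero M] (d : (ZMod M)ˣ) :
    ∃ g : SL(2, ℤ), g ∈ Gamma0 M ∧ lr M g = (d : ZMod M) := by
  have hcop : Nat.Coprime (d : ZMod M).val M := ZMod.val_coe_unit_coprime d
  have h : IsCoprime (((d : ZMod M).val : ℕ) : ℤ) (M : ℤ) := Nat.isCoprime_iff_coprime.mpr hcop
  obtain ⟨u, v, huv⟩ := h
  refine ⟨mkSL u (-v) M ((d : ZMod M).val : ℤ) (by linear_combination huv),
    Gamma0_mem.mpr ?_, ?_⟩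
  · simp
  · simp [lr]

theorem diamRep_mem (M : ℕ) (d : ZMod M) : diamRep M d ∈ Gamma0 M := by
  unfold diamRep
  split_ifs with h
  · exact h.choose_spec.1
  · exact one_mem _

theorem lr_diamRep (M : ℕ) [NeZero M] (d : (ZMod M)ˣ) :
    lr M (diamRep M (d : ZMod M)) = (d : ZMod M) := by
  have h := exists_diamRep M d
  unfold diamRep
  rw [dif_pos h]
  exact h.choose_spec.2

theorem lr_diamRep_prime (M : ℕ) [NeZero M] {p : ℕ} (hp : p.Prime) (hpM : ¬ p ∣ M) :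
    lr M (diamRep M (p : ZMod M)) = (p : ZMod M) := by
  have hcop : Nat.Coprime p M := (Nat.Prime.coprime_iff_not_dvd hp).mpr hpM
  have := lr_diamRep M (ZMod.unitOfCoprime p hcop)
  simpa using this

/-! ## The group `G1 M` -/

theorem Gamma1_le_G1 (M : ℕ) : Gamma1 M ≤ G1 M := le_sup_left

theorem neg_one_mem_G1 (M : ℕ) : (-1 : SL(2, ℤ)) ∈ G1 M :=
  (le_sup_right : Subgroup.zpowers (-1 : SL(2, ℤ)) ≤ G1 M) (Subgroup.mem_zpowers _)

theorem neg_mem_G1 {M : ℕ} {γ : SL(2, ℤ)} (h : γ ∈ G1 M) : -γ ∈ G1 M := by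
  have : -γ = γ * (-1) := by simp
  rw [this]
  exact mul_mem h (neg_one_mem_G1 M)

/-- The subgroup `{γ | γ ∈ Γ₁(M) ∨ -γ ∈ Γ₁(M)}`. -/
def pmGamma1 (M : ℕ) : Subgroup SL(2, ℤ) where
  carrier := {γ | γ ∈ Gamma1 M ∨ -γ ∈ Gamma1 M}
  one_mem' := Or.inl (one_mem _)
  mul_mem' := by
    rintro a b (ha | ha) (hb | hb)
    · exact Or.inl (mul_mem ha hb)
    · refine Or.inr ?_
      have : -(a * b) = a * (-b) := by simp
      rw [this]; exact mul_mem ha hb
    · refine Or.inr ?_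
      have : -(a * b) = (-a) * b := by simp
      rw [this]; exact mul_mem ha hb
    · refine Or.inl ?_
      have : a * b = (-a) * (-b) := by simp
      rw [this]; exact mul_mem ha hb
  inv_mem' := by
    rintro a (ha | ha)
    · exact Or.inl (inv_mem ha)
    · refine Or.inr ?_
      have : -a⁻¹ = (-a)⁻¹ := by
        rw [eq_comm, inv_eq_iff_eq_inv]
        apply mul_left_cancel (a := -a⁻¹)
        simp
      rw [this]; exact inv_mem ha

theorem mem_G1_iff {M : ℕ} {γ : SL(2, ℤ)} : γ ∈ G1 M ↔ γ ∈ Gamma1 M ∨ -γ ∈ Gamma1 M := by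
  constructor
  · intro h
    have hle : G1 M ≤ pmGamma1 M := by
      refine sup_le (fun x hx => Or.inl hx) ?_
      rw [Subgroup.zpowers_le]
      exact Or.inr (by simp [one_mem])
    exact hle h
  · rintro (h | h)
    · exact Gamma1_le_G1 M h
    · have := neg_mem_G1 (Gamma1_le_G1 M h)
      simpa using this

theorem G1_le_Gamma0 (M : ℕ) : G1 M ≤ Gamma0 M := by
  refine sup_le (Gamma1_in_Gamma0 M) ?_
  rw [Subgroup.zpowers_le, Gamma0_mem]
  simp

theorem conj_mem_G1 {M : ℕ} {g γ : SL(2, ℤ)} (hg : g ∈ Gamma0 M) (hγ : γ ∈ G1 M) :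
    g * γ * g⁻¹ ∈ G1 M := by
  rcases mem_G1_iff.mp hγ with h | h
  · exact Gamma1_le_G1 M (conj_mem_Gamma1 hg h)
  · have h1 := conj_mem_Gamma1 hg h
    have h2 : g * γ * g⁻¹ = -(g * -γ * g⁻¹) := by simp
    rw [h2]
    exact neg_mem_G1 (Gamma1_le_G1 M h1)

theorem conjG1_coe {M : ℕ} {g : SL(2, ℤ)} (hg : g ∈ Gamma0 M) (γ : ↥(G1 M)) :
    ((conjG1 M g γ : ↥(G1 M)) : SL(2, ℤ)) = g * γ * g⁻¹ := by
  have h : ∀ γ ∈ G1 M, g * γ * g⁻¹ ∈ G1 M := fun γ hγ => conj_mem_G1 hg hγ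
  unfold conjG1
  rw [dif_pos h]
  rfl

theorem g1ToGL_injective (M : ℕ) : Function.Injective (g1ToGL M) :=
  (mapGL_injective (R := ℤ) (S := ℝ)).comp (Subgroup.subtype_injective _)

/-- `mapGL ℝ (-1)` is central. -/
theorem mapGL_neg_one_comm (A : GL (Fin 2) ℝ) :
    A * mapGL ℝ (-1 : SL(2, ℤ)) = mapGL ℝ (-1 : SL(2, ℤ)) * A := by
  apply Units.ext
  rw [Units.val_mul, Units.val_mul]
  ext i j
  fin_cases i <;> fin_cases j <;> simp [Matrix.mul_apply, Fin.sum_univ_two]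

/-! ## Rewriting data -/

theorem famT1_eq (M p : ℕ) (x : OnePoint (ZMod p)) :
    famT1 M p x = mapGL ℝ (x.elim (diamRep M (p : ZMod M)) (fun _ => 1)) * heckeRep p x := by
  induction x using OnePoint.rec with
  | infty => rfl
  | coe j =>
    show heckeRep1 p _ (j : OnePoint (ZMod p)) = mapGL ℝ 1 * heckeRep p (j : OnePoint (ZMod p))
    rw [map_one, one_mul, heckeRep1_coe, heckeRep_coe]

/-- The rewriting data for `T_p` on `G1 M`, `p ∤ M`. -/
theorem rewritingT1 (M p : ℕ) [NeZero M] [Fact p.Prime] (hpM : ¬ p ∣ M) :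
    Rewriting (g1ToGL M) (famT1 M p) where
  inj := g1ToGL_injective M
  rw γ x := by
    have hp : p.Prime := Fact.out
    have hδ := diamRep_mem M (p : ZMod M)
    have hδp := lr_diamRep_prime M hp hpM
    rcases mem_G1_iff.mp γ.2 with h | h
    · obtain ⟨g', hg', hmul⟩ := heckeRep1_mul hpM hδ hδp (γ : SL(2, ℤ)) h x
      exact ⟨_, ⟨g', Gamma1_le_G1 M hg'⟩, hmul⟩
    · obtain ⟨g', hg', hmul⟩ := heckeRep1_mul hpM hδ hδp (-(γ : SL(2, ℤ))) h x
      refine ⟨redMat p (-(γ : SL(2, ℤ))) • x,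
        ⟨g' * (-1), mul_mem (Gamma1_le_G1 M hg') (neg_one_mem_G1 M)⟩, ?_⟩
      have e : (γ : SL(2, ℤ)) = -(γ : SL(2, ℤ)) * (-1) := by simp
      show heckeRep1 p (diamRep M (p : ZMod M)) x * mapGL ℝ (γ : SL(2, ℤ))
        = mapGL ℝ (g' * (-1)) * heckeRep1 p (diamRep M (p : ZMod M)) _
      calc heckeRep1 p (diamRep M (p : ZMod M)) x * mapGL ℝ (γ : SL(2, ℤ))
          = heckeRep1 p (diamRep M (p : ZMod M)) x * mapGL ℝ (-(γ : SL(2, ℤ)))
              * mapGL ℝ (-1) := by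
            conv_lhs => rw [e]
            rw [map_mul, ← mul_assoc]
        _ = mapGL ℝ g' * (heckeRep1 p (diamRep M (p : ZMod M)) (redMat p (-(γ : SL(2, ℤ))) • x)
              * mapGL ℝ (-1)) := by rw [hmul, mul_assoc]
        _ = mapGL ℝ (g' * (-1))
              * heckeRep1 p (diamRep M (p : ZMod M)) (redMat p (-(γ : SL(2, ℤ))) • x) := by
            rw [mapGL_neg_one_comm, map_mul, mul_assoc]
  sep x y κ e := by
    rw [famT1_eq, famT1_eq] at e
    have e' : mapGL ℝ (x.elim (diamRep M (p : ZMod M)) (fun _ => 1)) * heckeRep p x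
        = mapGL ℝ (κ : SL(2, ℤ))
          * (mapGL ℝ (y.elim (diamRep M (p : ZMod M)) (fun _ => 1)) * heckeRep p y) := e
    refine heckeRep_sep x y
      ((x.elim (diamRep M (p : ZMod M)) (fun _ => 1))⁻¹ * (κ : SL(2, ℤ))
        * (y.elim (diamRep M (p : ZMod M)) (fun _ => 1))) ?_
    rw [map_mul, map_mul, map_inv, mul_assoc, mul_assoc, ← e', inv_mul_cancel_left]

/-- Rewriting data for a family translated by an element normalising the group. -/
theorem rewriting_translate {G Γ X : Type*} [Group G] [Group Γ] {ι : Γ →* G} {α : X → G}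
    (h : Rewriting ι α) (g : G) (J J' : Γ →* Γ) (hJ : ∀ γ, ι (J γ) = g⁻¹ * ι γ * g)
    (hJ' : ∀ γ, ι (J' γ) = g * ι γ * g⁻¹) :
    Rewriting ι (fun x => g⁻¹ * α x) where
  inj := h.inj
  rw γ x := by
    refine ⟨h.tgt γ x, J (h.kap γ x), ?_⟩
    show g⁻¹ * α x * ι γ = ι (J (h.kap γ x)) * (g⁻¹ * α (h.tgt γ x))
    rw [hJ, mul_assoc, h.spec γ x]
    group
  sep x y κ e := by
    refine h.sep x y (J' κ) ?_
    have e' : g⁻¹ * α x = ι κ * (g⁻¹ * α y) := e
    rw [hJ']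
    calc α x = g * (g⁻¹ * α x) := by group
      _ = g * (ι κ * (g⁻¹ * α y)) := by rw [e']
      _ = g * ι κ * g⁻¹ * α y := by group

theorem rewriting_translate_kap {G Γ X : Type*} [Group G] [Group Γ] {ι : Γ →* G} {α : X → G}
    (h : Rewriting ι α) (g : G) (J J' : Γ →* Γ) (hJ : ∀ γ, ι (J γ) = g⁻¹ * ι γ * g)
    (hJ' : ∀ γ, ι (J' γ) = g * ι γ * g⁻¹) (γ : Γ) (x : X) :
    (rewriting_translate h g J J' hJ hJ').kap γ x = J (h.kap γ x) := by
  refine (rewriting_translate h g J J' hJ hJ').kap_eq (y := h.tgt γ x) ?_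
  show g⁻¹ * α x * ι γ = ι (J (h.kap γ x)) * (g⁻¹ * α (h.tgt γ x))
  rw [hJ, mul_assoc, h.spec γ x]
  group

theorem transfer_translate {G Γ X : Type*} [Group G] [Group Γ] [Fintype X] {ι : Γ →* G}
    {α : X → G} (h : Rewriting ι α) (g : G) (J J' : Γ →* Γ)
    (hJ : ∀ γ, ι (J γ) = g⁻¹ * ι γ * g) (hJ' : ∀ γ, ι (J' γ) = g * ι γ * g⁻¹)
    {A : Type*} [AddCommGroup A] (φ : Additive Γ →+ A) :
    (rewriting_translate h g J J' hJ hJ').transfer A φ = h.transfer A (precompAdd J A φ) := by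
  refine AddMonoidHom.ext fun γ' => ?_
  obtain ⟨γ, rfl⟩ : ∃ γ : Γ, Additive.ofMul γ = γ' := ⟨Additive.toMul γ', rfl⟩
  rw [Rewriting.transfer_apply, Rewriting.transfer_apply]
  refine Finset.sum_congr rfl fun x _ => ?_
  rw [rewriting_translate_kap h g J J' hJ hJ', precompAdd_apply]

/-! ## The operators -/

section ops

variable (M p : ℕ) [NeZero M] [Fact p.Prime] (hpM : ¬ p ∣ M)

theorem g1ToGL_conjG1 {g : SL(2, ℤ)} (hg : g ∈ Gamma0 M) (γ : ↥(G1 M)) :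
    g1ToGL M (conjG1 M g γ) = mapGL ℝ g * g1ToGL M γ * (mapGL ℝ g)⁻¹ := by
  rw [g1ToGL_apply, conjG1_coe hg, map_mul, map_mul, map_inv]
  rfl

theorem g1ToGL_conjG1_inv {g : SL(2, ℤ)} (hg : g ∈ Gamma0 M) (γ : ↥(G1 M)) :
    g1ToGL M (conjG1 M g⁻¹ γ) = (mapGL ℝ g)⁻¹ * g1ToGL M γ * mapGL ℝ g := by
  rw [g1ToGL_apply, conjG1_coe (inv_mem hg), map_mul, map_mul, map_inv, inv_inv]
  rfl

include hpM in
/-- The rewriting data for `U_p` on `G1 M`, `p ∤ M`. -/
theorem rewritingU1 : Rewriting (g1ToGL M) (famU1 M p) :=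
  rewriting_translate (rewritingT1 M p hpM) (mapGL ℝ (diamRep M (p : ZMod M)))
    (conjG1 M (diamRep M (p : ZMod M))⁻¹) (conjG1 M (diamRep M (p : ZMod M)))
    (g1ToGL_conjG1_inv M (diamRep_mem M _)) (g1ToGL_conjG1 M (diamRep_mem M _))

variable {A B : Type*} [AddCommGroup A] [AddCommGroup B]

include hpM in
theorem cohT1_eq_transfer : haveI : NeZero p := ⟨(Fact.out : p.Prime).ne_zero⟩
    cohT1 M p A = (rewritingT1 M p hpM).transfer A := by
  unfold cohT1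
  rw [dif_pos (rewritingT1 M p hpM)]

include hpM in
theorem cohU1_eq_transfer : haveI : NeZero p := ⟨(Fact.out : p.Prime).ne_zero⟩
    cohU1 M p A = (rewritingU1 M p hpM).transfer A := by
  unfold cohU1
  rw [dif_pos (rewritingU1 M p hpM)]

theorem conjG1_inv_comp {g : SL(2, ℤ)} (hg : g ∈ Gamma0 M) (γ : ↥(G1 M)) :
    conjG1 M g⁻¹ (conjG1 M g γ) = γ := by
  apply Subtype.ext
  rw [conjG1_coe (inv_mem hg), conjG1_coe hg]
  group

theorem conjG1_comp_inv {g : SL(2, ℤ)} (hg : g ∈ Gamma0 M) (γ : ↥(G1 M)) :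
    conjG1 M g (conjG1 M g⁻¹ γ) = γ := by
  apply Subtype.ext
  rw [conjG1_coe hg, conjG1_coe (inv_mem hg)]
  group

include hpM in
/-- `U_p φ = T_p (φ ∘ conj(g_p⁻¹))`. -/
theorem cohU1_eq_cohT1 (φ : Additive ↥(G1 M) →+ A) : haveI : NeZero p := ⟨(Fact.out : p.Prime).ne_zero⟩
    cohU1 M p A φ = cohT1 M p A (precompAdd (conjG1 M (diamRep M (p : ZMod M))⁻¹) A φ) := by
  rw [cohU1_eq_transfer M p hpM, cohT1_eq_transfer M p hpM]
  exact transfer_translate (rewritingT1 M p hpM) (mapGL ℝ (diamRep M (p : ZMod M)))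
    (conjG1 M (diamRep M (p : ZMod M))⁻¹) (conjG1 M (diamRep M (p : ZMod M)))
    (g1ToGL_conjG1_inv M (diamRep_mem M _)) (g1ToGL_conjG1 M (diamRep_mem M _)) φ

include hpM in
/-- **`T_p = U_p ∘ ⟨p⟩`.** -/
theorem cohT1_eq_cohU1_cohD1 (φ : Additive ↥(G1 M) →+ A) :
    haveI : NeZero p := ⟨(Fact.out : p.Prime).ne_zero⟩
    cohT1 M p A φ = cohU1 M p A (cohD1 M (p : ZMod M) A φ) := by
  rw [cohU1_eq_cohT1 M p hpM]
  congr 1
  refine AddMonoidHom.ext fun γ' => ?_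
  obtain ⟨γ, rfl⟩ : ∃ γ : ↥(G1 M), Additive.ofMul γ = γ' := ⟨Additive.toMul γ', rfl⟩
  show φ (Additive.ofMul γ) = φ (Additive.ofMul
    (conjG1 M (diamRep M (p : ZMod M)) (conjG1 M (diamRep M (p : ZMod M))⁻¹ γ)))
  rw [conjG1_comp_inv M (diamRep_mem M _)]

/-! ### Naturality in the coefficient group -/

include hpM in
theorem cohT1_comp (ψ : A →+ B) (φ : Additive ↥(G1 M) →+ A) :
    haveI : NeZero p := ⟨(Fact.out : p.Prime).ne_zero⟩
    cohT1 M p B (ψ.comp φ) = ψ.comp (cohT1 M p A φ) := by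
  rw [cohT1_eq_transfer M p hpM, cohT1_eq_transfer M p hpM]
  exact (rewritingT1 M p hpM).transfer_comp ψ φ

include hpM in
theorem cohU1_comp (ψ : A →+ B) (φ : Additive ↥(G1 M) →+ A) :
    haveI : NeZero p := ⟨(Fact.out : p.Prime).ne_zero⟩
    cohU1 M p B (ψ.comp φ) = ψ.comp (cohU1 M p A φ) := by
  rw [cohU1_eq_transfer M p hpM, cohU1_eq_transfer M p hpM]
  exact (rewritingU1 M p hpM).transfer_comp ψ φ

include hpM in
theorem cohT1_smul {R : Type*} [Semiring R] [Module R A] (r : R) (φ : Additive ↥(G1 M) →+ A) :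
    haveI : NeZero p := ⟨(Fact.out : p.Prime).ne_zero⟩
    cohT1 M p A (r • φ) = r • cohT1 M p A φ := by
  rw [cohT1_eq_transfer M p hpM]
  exact (rewritingT1 M p hpM).transfer_smul r φ

include hpM in
theorem cohU1_smul {R : Type*} [Semiring R] [Module R A] (r : R) (φ : Additive ↥(G1 M) →+ A) :
    haveI : NeZero p := ⟨(Fact.out : p.Prime).ne_zero⟩
    cohU1 M p A (r • φ) = r • cohU1 M p A φ := by
  rw [cohU1_eq_transfer M p hpM]
  exact (rewritingU1 M p hpM).transfer_smul r φ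

omit [NeZero M] in
theorem cohD1_comp (d : ZMod M) (ψ : A →+ B) (φ : Additive ↥(G1 M) →+ A) :
    cohD1 M d B (ψ.comp φ) = ψ.comp (cohD1 M d A φ) := rfl

omit [NeZero M] in
theorem cohD1_smul {R : Type*} [Semiring R] [Module R A] (d : ZMod M) (r : R)
    (φ : Additive ↥(G1 M) →+ A) : cohD1 M d A (r • φ) = r • cohD1 M d A φ := rfl

omit [NeZero M] in
theorem cohD1_apply (d : ZMod M) (φ : Additive ↥(G1 M) →+ A) (γ : ↥(G1 M)) :
    cohD1 M d A φ (Additive.ofMul γ) = φ (Additive.ofMul (conjG1 M (diamRep M d) γ)) := rfl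

/-! ### Preservation of the vanishing on parabolic elements and elements of finite order -/

omit [NeZero M] in
/-- Generic preservation statement for transfers on `G1 M`. -/
theorem transfer_kills_parEll1 {X : Type*} [Fintype X] {α : X → GL (Fin 2) ℝ}
    (h : Rewriting (g1ToGL M) α) (φ : Additive ↥(G1 M) →+ A)
    (hφ : ∀ γ ∈ parEllSet1 M, φ (Additive.ofMul γ) = 0) :
    ∀ γ ∈ parEllSet1 M, h.transfer A φ (Additive.ofMul γ) = 0 := by
  rintro γ (hγ | hγ)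
  · refine h.transfer_kills
      (fun γ : ↥(G1 M) => ((γ : SL(2, ℤ)) : Matrix (Fin 2) (Fin 2) ℤ).trace ^ 2 = 4)
      ?_ ?_ φ (fun γ hγ => hφ γ (Or.inl hγ)) γ hγ
    · intro γ hγ k _
      have := sl_trace_pow_sq (γ : SL(2, ℤ)) hγ k
      simpa using this
    · intro γ hγ x κ e
      have := sl_trace_eq_of_conj (α x) (γ : SL(2, ℤ)) (κ : SL(2, ℤ)) e
      show ((κ : SL(2, ℤ)) : Matrix (Fin 2) (Fin 2) ℤ).trace ^ 2 = 4
      rw [this]
      exact hγ
  · refine h.transfer_kills (fun γ : ↥(G1 M) => IsOfFinOrder γ) ?_ ?_ φ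
      (fun γ hγ => hφ γ (Or.inr hγ)) γ hγ
    · intro γ hγ k _
      exact hγ.pow
    · intro γ hγ x κ e
      have h1 : g1ToGL M κ = α x * g1ToGL M γ * (α x)⁻¹ := by rw [e]; group
      have h2 : IsOfFinOrder (g1ToGL M γ) := (g1ToGL M).isOfFinOrder hγ
      have h3 : IsOfFinOrder (α x * g1ToGL M γ * (α x)⁻¹) :=
        (isConj_iff.mpr ⟨α x, rfl⟩ : IsConj (g1ToGL M γ) _).isOfFinOrder h2
      rw [← h1] at h3
      exact (g1ToGL_injective M).isOfFinOrder_iff.mp h3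

include hpM in
theorem cohT1_kills (φ : Additive ↥(G1 M) →+ A)
    (hφ : ∀ γ ∈ parEllSet1 M, φ (Additive.ofMul γ) = 0) :
    haveI : NeZero p := ⟨(Fact.out : p.Prime).ne_zero⟩
    ∀ γ ∈ parEllSet1 M, cohT1 M p A φ (Additive.ofMul γ) = 0 := by
  rw [cohT1_eq_transfer M p hpM]
  exact transfer_kills_parEll1 M (rewritingT1 M p hpM) φ hφ

include hpM in
theorem cohU1_kills (φ : Additive ↥(G1 M) →+ A)
    (hφ : ∀ γ ∈ parEllSet1 M, φ (Additive.ofMul γ) = 0) :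
    haveI : NeZero p := ⟨(Fact.out : p.Prime).ne_zero⟩
    ∀ γ ∈ parEllSet1 M, cohU1 M p A φ (Additive.ofMul γ) = 0 := by
  rw [cohU1_eq_transfer M p hpM]
  exact transfer_kills_parEll1 M (rewritingU1 M p hpM) φ hφ

omit [NeZero M] in
theorem conj_mem_parEllSet1 {g : SL(2, ℤ)} (hg : g ∈ Gamma0 M) {γ : ↥(G1 M)}
    (hγ : γ ∈ parEllSet1 M) : conjG1 M g γ ∈ parEllSet1 M := by
  rcases hγ with hγ | hγ
  · left
    show (((conjG1 M g γ : ↥(G1 M)) : SL(2, ℤ)) : Matrix (Fin 2) (Fin 2) ℤ).trace ^ 2 = 4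
    rw [conjG1_coe hg]
    have : ((g * (γ : SL(2, ℤ)) * g⁻¹ : SL(2, ℤ)) : Matrix (Fin 2) (Fin 2) ℤ).trace
        = ((γ : SL(2, ℤ)) : Matrix (Fin 2) (Fin 2) ℤ).trace := by
      rw [Matrix.SpecialLinearGroup.coe_mul, Matrix.SpecialLinearGroup.coe_mul,
        Matrix.trace_mul_cycle, ← Matrix.SpecialLinearGroup.coe_mul, inv_mul_cancel,
        Matrix.SpecialLinearGroup.coe_one, Matrix.one_mul]
    rw [this]
    exact hγ
  · right
    have hinj : Function.Injective (G1 M).subtype := Subgroup.subtype_injective _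
    rw [← hinj.isOfFinOrder_iff]
    show IsOfFinOrder ((conjG1 M g γ : ↥(G1 M)) : SL(2, ℤ))
    rw [conjG1_coe hg]
    have h2 : IsOfFinOrder (γ : SL(2, ℤ)) := (G1 M).subtype.isOfFinOrder hγ
    exact (isConj_iff.mpr ⟨g, rfl⟩ : IsConj (γ : SL(2, ℤ)) _).isOfFinOrder h2

omit [NeZero M] in
theorem cohD1_kills (d : ZMod M) (φ : Additive ↥(G1 M) →+ A)
    (hφ : ∀ γ ∈ parEllSet1 M, φ (Additive.ofMul γ) = 0) :
    ∀ γ ∈ parEllSet1 M, cohD1 M d A φ (Additive.ofMul γ) = 0 := by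
  intro γ hγ
  rw [cohD1_apply]
  exact hφ _ (conj_mem_parEllSet1 M (diamRep_mem M d) hγ)

end ops

end Fermat.Agent.H21.Es1C

end
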