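import Fermat.Agent.H21.Es1C.Coh1
import Fermat.Agent.H12.ThetaEigen
import Fermat.Agent.H6.S22_gamma0_exists_generators

/-!
# P-ES1 / ES1-C / COH-EIG1 (helper21): the eigen-system occurs in `Hom(G1 M, k)`

`cohEigen1_of_parts : PeriodLinear1Statement → PeriodParabolic1Statement →
  PeriodTransfer1Statement → PeriodInjective1Statement → FormsSideStatement → CohEigen1Statement`.

Construction.  `V`, `T`, `ρ`, `θ` from the forms side.  `Ω = V →+ ℂ`, `ev γ = (f ↦ ∫_γ f)`,
`B = range ev` (finitely generated, torsion free), `T` acts on `Ω` by transposition and preserves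
`B` (transfer formula); `θ` kills the annihilator of `B` (injectivity of the period map);
`thetaEigen` gives `w : B → k`, and `w ∘ ev` is the class.
-/

set_option autoImplicit false

noncomputable section

open CongruenceSubgroup UpperHalfPlane Matrix.SpecialLinearGroup
open ModularCurve ModularCurve.Period
open scoped MatrixGroups OnePoint ModularForm
open P2MW.S_ModularForm_heckeT_slash_eq_self_of_mem_Gamma0.ModularForm.HeckeSlashInvariance

namespace Fermat.Agent.H21.Es1C

open Fermat.Agent.H29.ES1 Fermat.Agent.H20.DS Fermat.Agent.H7.DS Fermat.Agent.H21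

/-! ## `thetaEigen` without faithfulness -/

/-- **ES1-THETA** for an action which is not necessarily faithful: it suffices that `θ` kills the
annihilator. -/
theorem thetaEigen_of_ann (B : Type) [AddCommGroup B] [Module.Finite ℤ B] (T : Type) [CommRing T]
    [Module T B] (k : Type) [Field k] (p : ℕ) [CharP k p] (hp : p.Prime) (θ : T →+* k)
    (hθ : ∀ t : T, (∀ b : B, t • b = 0) → θ t = 0) :
    ∃ w : B →+ k, w ≠ 0 ∧ ∀ (t : T) (b : B), w (t • b) = θ t * w b := by
  let I : Ideal T := Module.annihilator T B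
  letI : Module (T ⧸ I) B := Module.quotientAnnihilator
  have hmk : ∀ (t : T) (b : B), (Ideal.Quotient.mk I t) • b = t • b := fun _ _ => rfl
  haveI : FaithfulSMul (T ⧸ I) B := by
    refine ⟨fun {q q'} h => ?_⟩
    obtain ⟨t, rfl⟩ := Ideal.Quotient.mk_surjective q
    obtain ⟨t', rfl⟩ := Ideal.Quotient.mk_surjective q'
    rw [Ideal.Quotient.eq, Module.mem_annihilator]
    intro b
    have := h b
    rw [hmk, hmk] at this
    rw [sub_smul, this, sub_self]
  let θ' : T ⧸ I →+* k := Ideal.Quotient.lift I θ (fun t ht =>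
    hθ t (fun b => Module.mem_annihilator.mp ht b))
  obtain ⟨w, hw0, hw⟩ := Fermat.Agent.H12.thetaEigen B (T ⧸ I) k p hp θ'
  refine ⟨w, hw0, fun t b => ?_⟩
  have := hw (Ideal.Quotient.mk I t) b
  rw [hmk] at this
  rw [this]
  rfl

/-! ## The lattice of periods -/

section lattice

variable {M : ℕ} [NeZero M] (V : Submodule ℂ (CuspForm (Gamma1 M) 2))

/-- Evaluation of the periods of the forms in `V`. -/
def evP (hLin : PeriodLinear1Statement) : Additive ↥(G1 M) →+ (V →+ ℂ) where
  toFun γ :=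
    { toFun := fun f => periodMap1 M (f : CuspForm (Gamma1 M) 2) γ
      map_zero' := by
        have h := (hLin M (0 : CuspForm (Gamma1 M) 2) 0 (0 : ℂ)).2
        rw [zero_smul, zero_smul] at h
        show periodMap1 M ((0 : V) : CuspForm (Gamma1 M) 2) γ = 0
        rw [Submodule.coe_zero, h]
        rfl
      map_add' := fun f g => by
        show periodMap1 M ((f + g : V) : CuspForm (Gamma1 M) 2) γ = _
        rw [Submodule.coe_add, (hLin M f g 0).1]
        rfl }
  map_zero' := by
    refine AddMonoidHom.ext fun f => ?_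
    exact map_zero (periodMap1 M (f : CuspForm (Gamma1 M) 2))
  map_add' γ γ' := by
    refine AddMonoidHom.ext fun f => ?_
    exact map_add (periodMap1 M (f : CuspForm (Gamma1 M) 2)) γ γ'

@[simp] theorem evP_apply (hLin : PeriodLinear1Statement) (γ : Additive ↥(G1 M)) (f : V) :
    evP V hLin γ f = periodMap1 M (f : CuspForm (Gamma1 M) 2) γ := rfl

variable {T : Type} [CommRing T] (ρ : T →+* Module.End ℂ V)

/-- The transposed action of `T` on `V →+ ℂ`. -/
def trAct : T →+* AddMonoid.End (V →+ ℂ) where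
  toFun t :=
    { toFun := fun β => β.comp ((ρ t : V →ₗ[ℂ] V) : V →+ V)
      map_zero' := rfl
      map_add' := fun _ _ => rfl }
  map_one' := by
    refine AddMonoidHom.ext fun β => AddMonoidHom.ext fun f => ?_
    show β ((ρ 1) f) = β f
    rw [map_one]
    rfl
  map_mul' t t' := by
    refine AddMonoidHom.ext fun β => AddMonoidHom.ext fun f => ?_
    show β ((ρ (t * t')) f) = β ((ρ t') ((ρ t) f))
    rw [mul_comm, map_mul]
    rfl
  map_zero' := by
    refine AddMonoidHom.ext fun β => AddMonoidHom.ext fun f => ?_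
    show β ((ρ 0) f) = 0
    rw [map_zero]
    exact map_zero β
  map_add' t t' := by
    refine AddMonoidHom.ext fun β => AddMonoidHom.ext fun f => ?_
    show β ((ρ (t + t')) f) = β ((ρ t) f) + β ((ρ t') f)
    rw [map_add, LinearMap.add_apply, map_add]

@[simp] theorem trAct_apply (t : T) (β : V →+ ℂ) (f : V) : trAct V ρ t β f = β (ρ t f) := rfl

/-- The lattice of periods `B = range ev`. -/
def perLat (hLin : PeriodLinear1Statement) : AddSubgroup (V →+ ℂ) := (evP V hLin).range

/-- The elements of `T` preserving the lattice of periods. -/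
def stabSub (hLin : PeriodLinear1Statement) : Subring T where
  carrier := {t | ∀ β ∈ perLat V hLin, trAct V ρ t β ∈ perLat V hLin}
  mul_mem' := by
    intro a b ha hb β hβ
    rw [map_mul]
    exact ha _ (hb β hβ)
  one_mem' := by
    intro β hβ
    rw [map_one]
    exact hβ
  add_mem' := by
    intro a b ha hb β hβ
    rw [map_add]
    exact add_mem (ha β hβ) (hb β hβ)
  zero_mem' := by
    intro β _
    rw [map_zero]
    exact zero_mem _
  neg_mem' := by
    intro a ha β hβ
    rw [map_neg]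
    exact neg_mem (ha β hβ)

/-- The action of `T` on the lattice of periods, once all of `T` preserves it. -/
def actB (hLin : PeriodLinear1Statement) (hst : stabSub V ρ hLin = ⊤) :
    T →+* AddMonoid.End ↥(perLat V hLin) where
  toFun t := ((trAct V ρ t).comp (perLat V hLin).subtype).codRestrict (perLat V hLin)
    (fun β => by
      have ht : t ∈ stabSub V ρ hLin := by rw [hst]; exact Subring.mem_top t
      exact ht β.1 β.2)
  map_one' := by
    refine AddMonoidHom.ext fun β => Subtype.ext ?_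
    show trAct V ρ 1 β.1 = β.1
    rw [map_one]
    rfl
  map_mul' t t' := by
    refine AddMonoidHom.ext fun β => Subtype.ext ?_
    show trAct V ρ (t * t') β.1 = trAct V ρ t (trAct V ρ t' β.1)
    rw [map_mul]
    rfl
  map_zero' := by
    refine AddMonoidHom.ext fun β => Subtype.ext ?_
    show trAct V ρ 0 β.1 = 0
    rw [map_zero]
    rfl
  map_add' t t' := by
    refine AddMonoidHom.ext fun β => Subtype.ext ?_
    show trAct V ρ (t + t') β.1 = trAct V ρ t β.1 + trAct V ρ t' β.1
    rw [map_add]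
    rfl

theorem coe_actB (hLin : PeriodLinear1Statement) (hst : stabSub V ρ hLin = ⊤) (t : T)
    (β : ↥(perLat V hLin)) :
    ((actB V ρ hLin hst t β : ↥(perLat V hLin)) : V →+ ℂ) = trAct V ρ t β.1 := rfl

/-- Evaluation of periods with values in the lattice. -/
def evB (hLin : PeriodLinear1Statement) : Additive ↥(G1 M) →+ ↥(perLat V hLin) :=
  (evP V hLin).rangeRestrict

theorem coe_evB (hLin : PeriodLinear1Statement) (γ : Additive ↥(G1 M)) :
    ((evB V hLin γ : ↥(perLat V hLin)) : V →+ ℂ) = evP V hLin γ := rfl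

theorem evB_surjective (hLin : PeriodLinear1Statement) : Function.Surjective (evB V hLin) :=
  (evP V hLin).rangeRestrict_surjective

theorem g1_fg (M : ℕ) [NeZero M] : Group.FG ↥(G1 M) := by
  haveI : Group.FG SL(2, ℤ) := Fermat.Agent.H6.sl2Z_group_fg
  haveI : (G1 M).FiniteIndex := Subgroup.finiteIndex_of_le (Gamma1_le_G1 M)
  exact Subgroup.fg_of_index_ne_zero (G1 M)

theorem perLat_finite (hLin : PeriodLinear1Statement) : Module.Finite ℤ ↥(perLat V hLin) := by
  rw [Module.Finite.iff_addGroup_fg]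
  haveI : Group.FG ↥(G1 M) := g1_fg M
  exact AddGroup.fg_of_surjective (evB_surjective V hLin)

theorem evB_eq_zero_of_parabolic (hLin : PeriodLinear1Statement)
    (hPar : PeriodParabolic1Statement) (γ : ↥(G1 M))
    (hγ : ((γ : SL(2, ℤ)) : Matrix (Fin 2) (Fin 2) ℤ).trace ^ 2 = 4) :
    evB V hLin (Additive.ofMul γ) = 0 := by
  refine Subtype.ext (AddMonoidHom.ext fun f => ?_)
  exact hPar M (f : CuspForm (Gamma1 M) 2) γ hγ

theorem evB_eq_zero_of_isOfFinOrder (hLin : PeriodLinear1Statement) (γ : ↥(G1 M))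
    (hγ : IsOfFinOrder γ) : evB V hLin (Additive.ofMul γ) = 0 := by
  obtain ⟨n, hn, hγn⟩ := isOfFinOrder_iff_pow_eq_one.mp hγ
  refine Subtype.ext (AddMonoidHom.ext fun f => ?_)
  show periodMap1 M (f : CuspForm (Gamma1 M) 2) (Additive.ofMul γ) = 0
  have h1 : periodMap1 M (f : CuspForm (Gamma1 M) 2) (n • Additive.ofMul γ) = 0 := by
    rw [← ofMul_pow, hγn]
    exact map_zero _
  rw [map_nsmul, nsmul_eq_mul] at h1
  rcases mul_eq_zero.mp h1 with h | h
  · exact absurd h (by exact_mod_cast hn.ne')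
  · exact h

end lattice

/-! ## Stability of the lattice under the generators -/

section stab

variable {M : ℕ} [NeZero M] (V : Submodule ℂ (CuspForm (Gamma1 M) 2))
variable {T : Type} [CommRing T] (ρ : T →+* Module.End ℂ V)

theorem det_famT1_pos (M p : ℕ) (x : OnePoint (ZMod p)) : 0 < (famT1 M p x).det.val := by
  rw [famT1_eq, map_mul, Units.val_mul]
  have h1 : ((mapGL ℝ (x.elim (diamRep M (p : ZMod M)) (fun _ => 1)) : GL (Fin 2) ℝ).det : ℝ)
      = 1 := by simp
  rw [h1, one_mul]
  cases x with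
  | infty => exact ModularForm.det_heckeDiagMatrix_pos p
  | coe j => exact ModularForm.det_heckeMatrix_pos p j.val

/-- The transposed Hecke operator on the evaluations. -/
theorem trAct_tp_evP (hLin : PeriodLinear1Statement) (hTr : PeriodTransfer1Statement)
    (p : PrimesAway M) (t : T)
    (ht : ∀ (f : V) (z : ℍ), ((ρ t f : V) : CuspForm (Gamma1 M) 2) z
      = ∑ x : OnePoint (ZMod (p : ℕ)),
          (((f : CuspForm (Gamma1 M) 2) : ℍ → ℂ) ∣[(2 : ℤ)] famT1 M p x) z)
    (γ : ↥(G1 M)) :
    haveI : Fact (p : ℕ).Prime := ⟨p.2.1⟩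
    trAct V ρ t (evP V hLin (Additive.ofMul γ))
      = ∑ x, evP V hLin (Additive.ofMul ((rewritingT1 M p p.2.2).kap γ x)) := by
  haveI : Fact (p : ℕ).Prime := ⟨p.2.1⟩
  refine AddMonoidHom.ext fun f => ?_
  rw [trAct_apply, evP_apply, AddMonoidHom.finset_sum_apply]
  simp only [evP_apply]
  exact hTr M (OnePoint (ZMod (p : ℕ))) (famT1 M p) (det_famT1_pos M p) f (ρ t f) (ht f) γ
    ((rewritingT1 M p p.2.2).perm γ) ((rewritingT1 M p p.2.2).kap γ)
    (fun x => (rewritingT1 M p p.2.2).spec γ x)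

/-- The transposed diamond operator on the evaluations. -/
theorem trAct_td_evP (hLin : PeriodLinear1Statement) (hTr : PeriodTransfer1Statement)
    (d : ZMod M) (t : T)
    (ht : ∀ (f : V) (z : ℍ), ((ρ t f : V) : CuspForm (Gamma1 M) 2) z
      = (((f : CuspForm (Gamma1 M) 2) : ℍ → ℂ) ∣[(2 : ℤ)] mapGL ℝ (diamRep M d)) z)
    (γ : ↥(G1 M)) :
    trAct V ρ t (evP V hLin (Additive.ofMul γ))
      = evP V hLin (Additive.ofMul (conjG1 M (diamRep M d) γ)) := by
  refine AddMonoidHom.ext fun f => ?_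
  rw [trAct_apply, evP_apply, evP_apply]
  have h := hTr M Unit (fun _ => mapGL ℝ (diamRep M d)) (fun _ => by simp) f (ρ t f)
    (fun z => by rw [ht f z]; simp) γ (Equiv.refl _) (fun _ => conjG1 M (diamRep M d) γ)
    (fun _ => by
      show mapGL ℝ (diamRep M d) * mapGL ℝ (γ : SL(2, ℤ))
        = mapGL ℝ ((conjG1 M (diamRep M d) γ : ↥(G1 M)) : SL(2, ℤ)) * mapGL ℝ (diamRep M d)
      rw [conjG1_coe (diamRep_mem M d), ← map_mul, ← map_mul]
      congr 1
      group)
  rw [h]
  simp

end stab

/-! ## The assembly -/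

set_option maxHeartbeats 1000000 in
/-- **COH-EIG1** from the period statements and the forms side. -/
theorem cohEigen1_of_parts (hLin : PeriodLinear1Statement) (hPar : PeriodParabolic1Statement)
    (hTr : PeriodTransfer1Statement) (hInj : PeriodInjective1Statement)
    (hF : FormsSideStatement) : CohEigen1Statement := by
  intro M _ hM ψ h ℓ hℓ k _ _ φ abar dbar hmod
  obtain ⟨V, hh, T, instT, ρ, tp, td, θ, hgen, hT, hD, hθp, hθd, hker⟩ :=
    hF M hM ψ h ℓ hℓ k φ abar dbar hmod
  -- stability of the lattice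
  have hst : stabSub V ρ hLin = ⊤ := by
    rw [eq_top_iff, ← hgen, Subring.closure_le]
    rintro t (⟨p, rfl⟩ | ⟨d, rfl⟩)
    · rintro β ⟨γ', rfl⟩
      obtain ⟨γ, rfl⟩ : ∃ γ : ↥(G1 M), Additive.ofMul γ = γ' := ⟨Additive.toMul γ', rfl⟩
      haveI : Fact (p : ℕ).Prime := ⟨p.2.1⟩
      rw [trAct_tp_evP V ρ hLin hTr p (tp p) (hT p) γ]
      exact sum_mem fun x _ => ⟨_, rfl⟩
    · rintro β ⟨γ', rfl⟩
      obtain ⟨γ, rfl⟩ : ∃ γ : ↥(G1 M), Additive.ofMul γ = γ' := ⟨Additive.toMul γ', rfl⟩
      rw [trAct_td_evP V ρ hLin hTr (d : ZMod M) (td d) (hD d) γ]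
      exact ⟨_, rfl⟩
  letI : Module T ↥(perLat V hLin) := Module.compHom _ (actB V ρ hLin hst)
  have hsmul : ∀ (t : T) (b : ↥(perLat V hLin)), t • b = actB V ρ hLin hst t b :=
    fun _ _ => rfl
  haveI := perLat_finite V hLin
  have hann : ∀ t : T, (∀ b : ↥(perLat V hLin), t • b = 0) → θ t = 0 := by
    intro t ht
    apply hker
    have key : ∀ f : V, ρ t f = 0 := by
      intro f
      apply Subtype.ext
      apply hInj M
      refine AddMonoidHom.ext fun γ => ?_
      have h1 := ht (evB V hLin γ)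
      rw [hsmul] at h1
      have h2 : ((actB V ρ hLin hst t (evB V hLin γ) : ↥(perLat V hLin)) : V →+ ℂ) f = 0 := by
        rw [h1]; rfl
      exact h2
    exact key ⟨h, hh⟩
  obtain ⟨w, hw0, hw⟩ := thetaEigen_of_ann ↥(perLat V hLin) T k ℓ hℓ θ hann
  refine ⟨w.comp (evB V hLin), ?_, ?_, ?_, ?_, ?_⟩
  · intro h0
    apply hw0
    refine AddMonoidHom.ext fun b => ?_
    obtain ⟨γ, rfl⟩ := evB_surjective V hLin b
    exact DFunLike.congr_fun h0 γ
  · intro γ hγ
    show w (evB V hLin (Additive.ofMul γ)) = 0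
    rw [evB_eq_zero_of_parabolic V hLin hPar γ hγ, map_zero]
  · intro γ hγ
    show w (evB V hLin (Additive.ofMul γ)) = 0
    rw [evB_eq_zero_of_isOfFinOrder V hLin γ hγ, map_zero]
  · intro p
    haveI : Fact (p : ℕ).Prime := ⟨p.2.1⟩
    rw [cohT1_eq_transfer M p p.2.2]
    refine AddMonoidHom.ext fun γ' => ?_
    obtain ⟨γ, rfl⟩ : ∃ γ : ↥(G1 M), Additive.ofMul γ = γ' := ⟨Additive.toMul γ', rfl⟩
    rw [Rewriting.transfer_apply]
    have h1 : (tp p) • evB V hLin (Additive.ofMul γ)
        = ∑ x, evB V hLin (Additive.ofMul ((rewritingT1 M p p.2.2).kap γ x)) := by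
      apply Subtype.ext
      rw [hsmul, coe_actB, coe_evB, trAct_tp_evP V ρ hLin hTr p (tp p) (hT p) γ,
        AddSubmonoidClass.coe_finsetSum]
      rfl
    have h2 := hw (tp p) (evB V hLin (Additive.ofMul γ))
    rw [h1, map_sum, hθp] at h2
    show ∑ x, w (evB V hLin (Additive.ofMul ((rewritingT1 M p p.2.2).kap γ x)))
      = abar p • w (evB V hLin (Additive.ofMul γ))
    rw [h2, smul_eq_mul]
  · intro d
    refine ⟨θ (td d), hθd d, ?_⟩
    refine AddMonoidHom.ext fun γ' => ?_
    obtain ⟨γ, rfl⟩ : ∃ γ : ↥(G1 M), Additive.ofMul γ = γ' := ⟨Additive.toMul γ', rfl⟩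
    have h1 : (td d) • evB V hLin (Additive.ofMul γ)
        = evB V hLin (Additive.ofMul (conjG1 M (diamRep M (d : ZMod M)) γ)) := by
      apply Subtype.ext
      rw [hsmul, coe_actB, coe_evB, trAct_td_evP V ρ hLin hTr (d : ZMod M) (td d) (hD d) γ]
      rfl
    have h2 := hw (td d) (evB V hLin (Additive.ofMul γ))
    rw [h1] at h2
    show w (evB V hLin (Additive.ofMul (conjG1 M (diamRep M (d : ZMod M)) γ)))
      = θ (td d) • w (evB V hLin (Additive.ofMul γ))
    rw [h2, smul_eq_mul]

end Fermat.Agent.H21.Es1C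

end
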