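import Fermat.Agent.H21.Es1C.CohEigen
import Fermat.Agent.H21.Es1C.Bridge

/-!
# P-ES1 / ES1-C / FINAL (helper21): `J1EigenStatement` from COH-EIG1 and BRIDGE1

* `toIntTensor` : the canonical isomorphism `k ⊗[ℤ/ℓ] W → k ⊗[ℤ] W` (as an injective map commuting
  with base changes of endomorphisms);
* `cohU1Par`, `cohD1Par` : the operators on `V_ℓ = parEllHoms1 M ℓ`;
* `j1Eigen_of_parts : CohEigen1Statement → KummerBridge1Statement → J1EigenStatement`.
-/

set_option autoImplicit false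

noncomputable section

open ModularCurve ModularCurve.Period AlgebraicCurve CongruenceSubgroup TensorProduct
open scoped MatrixGroups

namespace Fermat.Agent.H21.Es1C

open Fermat.Agent.H29.ES1 Fermat.Agent.H20.DS Fermat.Agent.H21 Fermat.Agent.H21.EsC

/-! ## Tensor products over `ℤ` and over `ℤ/ℓ` -/

section tensorInt

variable (ℓ : ℕ) [NeZero ℓ] (k : Type*) [Field k] [Algebra (ZMod ℓ) k]
  (W : Type*) [AddCommGroup W] [Module (ZMod ℓ) W]

theorem compatibleSMul_int_zmod : TensorProduct.CompatibleSMul ℤ (ZMod ℓ) k W := by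
  refine ⟨fun r m n => ?_⟩
  obtain ⟨a, rfl⟩ := ZMod.intCast_surjective r
  rw [Int.cast_smul_eq_zsmul, Int.cast_smul_eq_zsmul, TensorProduct.smul_tmul]

/-- The canonical map `k ⊗[ℤ/ℓ] W → k ⊗[ℤ] W`. -/
def toIntTensor : k ⊗[ZMod ℓ] W →ₗ[k] k ⊗[ℤ] W :=
  haveI := compatibleSMul_int_zmod ℓ k W
  TensorProduct.mapOfCompatibleSMul ℤ (ZMod ℓ) k k W

@[simp] theorem toIntTensor_tmul (c : k) (v : W) :
    toIntTensor ℓ k W (c ⊗ₜ[ZMod ℓ] v) = c ⊗ₜ[ℤ] v := rfl

theorem toIntTensor_injective : Function.Injective (toIntTensor ℓ k W) := by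
  haveI := compatibleSMul_int_zmod ℓ k W
  have h : ∀ x, TensorProduct.mapOfCompatibleSMul (ZMod ℓ) ℤ k k W (toIntTensor ℓ k W x) = x := by
    intro x
    induction x using TensorProduct.induction_on with
    | zero => simp
    | tmul c v => rfl
    | add x y hx hy => rw [map_add, map_add, hx, hy]
  exact Function.LeftInverse.injective h

theorem toIntTensor_baseChange (D : W →ₗ[ZMod ℓ] W) (ξ : k ⊗[ZMod ℓ] W) :
    toIntTensor ℓ k W (D.baseChange k ξ)
      = (D.restrictScalars ℤ).baseChange k (toIntTensor ℓ k W ξ) := by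
  induction ξ using TensorProduct.induction_on with
  | zero => simp
  | tmul c v => rfl
  | add x y hx hy => rw [map_add, map_add, hx, hy, map_add, map_add]

end tensorInt

/-! ## The operators on `V_n` -/

section par

variable (M n : ℕ)

theorem mem_parEllHoms1_iff {χ : Additive ↥(G1 M) →+ ZMod n} :
    χ ∈ parEllHoms1 M n ↔ ∀ γ ∈ parEllSet1 M, χ (Additive.ofMul γ) = 0 := Iff.rfl

/-- The inclusion of `V_n`, as a `ZMod n`-linear map. -/
def parEllIncl1 : parEllHoms1 M n →ₗ[ZMod n] (Additive ↥(G1 M) →+ ZMod n) :=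
  (parEllHoms1 M n).subtype.toZModLinearMap n

@[simp] theorem parEllIncl1_apply (χ : parEllHoms1 M n) :
    parEllIncl1 M n χ = (χ : Additive ↥(G1 M) →+ ZMod n) := rfl

theorem parEllIncl1_injective : Function.Injective (parEllIncl1 M n) :=
  fun _ _ h => Subtype.ext h

/-- The operator `cohU1 p` on `V_n`. -/
def cohU1Par [NeZero M] (p : ℕ) [Fact p.Prime] (hpM : ¬ p ∣ M) :
    Module.End (ZMod n) (parEllHoms1 M n) :=
  haveI : NeZero p := ⟨(Fact.out : p.Prime).ne_zero⟩
  (((cohU1 M p (ZMod n)).comp (parEllHoms1 M n).subtype).codRestrict (parEllHoms1 M n)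
    (fun χ => cohU1_kills M p hpM _ χ.2)).toZModLinearMap n

theorem coe_cohU1Par [NeZero M] (p : ℕ) [Fact p.Prime] (hpM : ¬ p ∣ M) (χ : parEllHoms1 M n) :
    haveI : NeZero p := ⟨(Fact.out : p.Prime).ne_zero⟩
    ((cohU1Par M n p hpM χ : parEllHoms1 M n) : Additive ↥(G1 M) →+ ZMod n)
      = cohU1 M p (ZMod n) (χ : Additive ↥(G1 M) →+ ZMod n) := rfl

/-- The operator `cohD1 d` on `V_n`. -/
def cohD1Par (d : ZMod M) : Module.End (ZMod n) (parEllHoms1 M n) :=
  (((cohD1 M d (ZMod n)).comp (parEllHoms1 M n).subtype).codRestrict (parEllHoms1 M n)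
    (fun χ => cohD1_kills M d _ χ.2)).toZModLinearMap n

theorem coe_cohD1Par (d : ZMod M) (χ : parEllHoms1 M n) :
    ((cohD1Par M n d χ : parEllHoms1 M n) : Additive ↥(G1 M) →+ ZMod n)
      = cohD1 M d (ZMod n) (χ : Additive ↥(G1 M) →+ ZMod n) := rfl

variable (k : Type*) [Field k] [Algebra (ZMod n) k]

theorem tensorEval_baseChange_cohU1Par [NeZero M] (p : ℕ) [Fact p.Prime] (hpM : ¬ p ∣ M)
    (ξ : k ⊗[ZMod n] parEllHoms1 M n) :
    haveI : NeZero p := ⟨(Fact.out : p.Prime).ne_zero⟩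
    tensorEval k (parEllIncl1 M n) ((cohU1Par M n p hpM).baseChange k ξ)
      = cohU1 M p k (tensorEval k (parEllIncl1 M n) ξ) := by
  induction ξ using TensorProduct.induction_on with
  | zero => simp
  | tmul c χ =>
    rw [LinearMap.baseChange_tmul, tensorEval_tmul, tensorEval_tmul, parEllIncl1_apply,
      parEllIncl1_apply, coe_cohU1Par, cohU1_smul M p hpM]
    congr 1
    exact (cohU1_comp M p hpM (algebraMap (ZMod n) k).toAddMonoidHom
      (χ : Additive ↥(G1 M) →+ ZMod n)).symm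
  | add x y hx hy => rw [map_add, map_add, hx, hy, map_add, map_add]

theorem tensorEval_baseChange_cohD1Par (d : ZMod M) (ξ : k ⊗[ZMod n] parEllHoms1 M n) :
    tensorEval k (parEllIncl1 M n) ((cohD1Par M n d).baseChange k ξ)
      = cohD1 M d k (tensorEval k (parEllIncl1 M n) ξ) := by
  induction ξ using TensorProduct.induction_on with
  | zero => simp
  | tmul c χ =>
    rw [LinearMap.baseChange_tmul, tensorEval_tmul, tensorEval_tmul, parEllIncl1_apply,
      parEllIncl1_apply, coe_cohD1Par, cohD1_smul]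
    rfl
  | add x y hx hy => rw [map_add, map_add, hx, hy, map_add, map_add]

end par

/-! ## The final assembly -/

set_option maxHeartbeats 2000000 in
/-- **ES1-EIG** from COH-EIG1 and BRIDGE1. -/
theorem j1Eigen_of_parts (hC : CohEigen1Statement) (hB : KummerBridge1Statement) :
    J1EigenStatement := by
  intro M _ hM ψ h ℓ hℓ k _ _ φ abar dbar hmod
  haveI : Fact ℓ.Prime := ⟨hℓ⟩
  haveI : NeZero ℓ := ⟨hℓ.ne_zero⟩
  letI : Algebra (ZMod ℓ) k := ZMod.algebra k ℓ
  obtain ⟨w, hw0, hwpar, hwfin, hwT, hwD⟩ := hC M hM ψ h ℓ hℓ k φ abar dbar hmod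
  haveI : Group.FG ↥(G1 M) := g1_fg M
  -- the tensor step
  obtain ⟨ξ, hξ⟩ := exists_tensorEval_eq (k := k) (parEllIncl1 M ℓ) (parEllSet1 M)
    (fun χ hχ => ⟨⟨χ, hχ⟩, rfl⟩) w (by
      rintro γ (hγ | hγ)
      · exact hwpar γ hγ
      · exact hwfin γ hγ)
  have hξ0 : ξ ≠ 0 := by
    rintro rfl
    exact hw0 (by rw [← hξ, map_zero])
  have hinjT : Function.Injective (tensorEval k (parEllIncl1 M ℓ)) :=
    tensorEval_injective (k := k) (parEllIncl1 M ℓ) (parEllIncl1_injective M ℓ)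
  -- the bridge as a linear map to the torsion
  obtain ⟨E, hEinj, hEtors, hEhecke, hEdiam⟩ := hB M hM ℓ hℓ.pos
  let E₀ : parEllHoms1 M ℓ →+ J1Tors M ℓ :=
    E.codRestrict (Pic0.torsion (AlgebraicClosure ℚ) (F1Bar M) ℓ) (fun χ => by
      rw [Pic0.mem_torsion, natCast_zsmul]
      exact hEtors χ)
  let E' : parEllHoms1 M ℓ →ₗ[ZMod ℓ] J1Tors M ℓ := E₀.toZModLinearMap ℓ
  have hE'inj : Function.Injective E' := by
    intro x y hxy
    apply hEinj
    exact congrArg Subtype.val hxy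
  have hcommU : ∀ (p : ℕ) [Fact p.Prime] [NeZero p] (hpM : ¬ p ∣ M),
      (heckeTors1 M ℓ p).comp E' = E'.comp (cohU1Par M ℓ p hpM) := by
    intro p _ _ hpM
    refine LinearMap.ext fun χ => Subtype.ext ?_
    show heckeOperatorGen (AlgebraicClosure ℚ) (F1 M) p (E χ) = E (cohU1Par M ℓ p hpM χ)
    exact (hEhecke p Fact.out hpM χ (cohU1Par M ℓ p hpM χ) rfl).symm
  have hcommD : ∀ d : (ZMod M)ˣ,
      (diamTors M ℓ d).comp E' = E'.comp (cohD1Par M ℓ (d : ZMod M)) := by
    intro d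
    refine LinearMap.ext fun χ => Subtype.ext ?_
    show SemilinearAut.ofAlgAut (diamondAut (AlgebraicClosure ℚ) M d⁻¹) • E χ
      = E (cohD1Par M ℓ (d : ZMod M) χ)
    exact (hEdiam d χ (cohD1Par M ℓ (d : ZMod M) χ) rfl).symm
  have hbcinj : Function.Injective (E'.baseChange k) :=
    Module.Flat.lTensor_preserves_injective_linearMap (M := k) E' hE'inj
  refine ⟨toIntTensor ℓ k (J1Tors M ℓ) (E'.baseChange k ξ), ?_, ?_, ?_⟩
  · intro h0
    apply hξ0
    apply hbcinj
    apply toIntTensor_injective ℓ k (J1Tors M ℓ)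
    rw [h0, map_zero, map_zero]
  · intro p hp hpMℓ
    have hpM : ¬ p ∣ M := fun hd => hpMℓ (Dvd.dvd.mul_right hd ℓ)
    haveI : Fact p.Prime := ⟨hp⟩
    haveI : NeZero p := ⟨hp.ne_zero⟩
    have hcop : Nat.Coprime p M := (Nat.Prime.coprime_iff_not_dvd hp).mpr hpM
    have hTT : TTors M ℓ p = heckeTors1 M ℓ p * diamTors M ℓ (ZMod.unitOfCoprime p hcop) := by
      unfold TTors
      rw [dif_pos ⟨hcop, hp.ne_zero⟩]
    have hu : ((ZMod.unitOfCoprime p hcop : (ZMod M)ˣ) : ZMod M) = (p : ZMod M) :=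
      ZMod.coe_unitOfCoprime p hcop
    -- the eigen-equation on `ξ`
    have hξeig : ((cohU1Par M ℓ p hpM) * (cohD1Par M ℓ (p : ZMod M))).baseChange k ξ
        = abar p • ξ := by
      apply hinjT
      rw [Module.End.mul_eq_comp, LinearMap.baseChange_comp, LinearMap.comp_apply,
        tensorEval_baseChange_cohU1Par, tensorEval_baseChange_cohD1Par, tensorEval_smul, hξ,
        ← cohT1_eq_cohU1_cohD1 M p hpM]
      exact hwT ⟨p, hp, hpM⟩
    have hcomm : (heckeTors1 M ℓ p * diamTors M ℓ (ZMod.unitOfCoprime p hcop)).comp E'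
        = E'.comp ((cohU1Par M ℓ p hpM) * (cohD1Par M ℓ (p : ZMod M))) := by
      rw [Module.End.mul_eq_comp, Module.End.mul_eq_comp, LinearMap.comp_assoc,
        hcommD (ZMod.unitOfCoprime p hcop), hu, ← LinearMap.comp_assoc, hcommU p hpM,
        LinearMap.comp_assoc]
    have hv : (heckeTors1 M ℓ p * diamTors M ℓ (ZMod.unitOfCoprime p hcop)).baseChange k
        (E'.baseChange k ξ) = abar p • E'.baseChange k ξ := by
      rw [← LinearMap.comp_apply, ← LinearMap.baseChange_comp,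
        hcomm, LinearMap.baseChange_comp, LinearMap.comp_apply, hξeig, map_smul]
    rw [hTT, ← toIntTensor_baseChange, hv, map_smul]
  · intro d
    obtain ⟨e, he, hde⟩ := hwD d
    refine ⟨e, he, ?_⟩
    have hξeig : (cohD1Par M ℓ (d : ZMod M)).baseChange k ξ = e • ξ := by
      apply hinjT
      rw [tensorEval_baseChange_cohD1Par, tensorEval_smul, hξ]
      exact hde
    have hv : (diamTors M ℓ d).baseChange k (E'.baseChange k ξ) = e • E'.baseChange k ξ := by
      rw [← LinearMap.comp_apply, ← LinearMap.baseChange_comp,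
        hcommD d, LinearMap.baseChange_comp, LinearMap.comp_apply, hξeig, map_smul]
    rw [← toIntTensor_baseChange, hv, map_smul]

end Fermat.Agent.H21.Es1C

end
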