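import Fermat.Agent.H21.Es1C.Unconditional
import Fermat.Agent.H69.ES1DegCFinal

/-!
# P-ES1 / ES1-C (helper21): `J1EigenStatement`, unconditional

All the rows of block ES1-C are landed; this file closes the block (row 582, ES1-EIG).

* `kummerHecke1U : KummerHecke1Statement`;
* `kummerBridge1U : KummerBridge1Statement`;
* `j1Eigen : Fermat.Agent.H29.ES1.J1EigenStatement`.
-/

set_option autoImplicit false

noncomputable section

open ModularCurve ModularCurve.Period AlgebraicCurve CongruenceSubgroup

namespace Fermat.Agent.H21.Es1C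

open Fermat.Agent.H29.ES1 Fermat.Agent.H20.DS Fermat.Agent.H21 Fermat.Agent.H21.EsC

/-- **ES1-C-KH**, unconditional. -/
theorem kummerHecke1U : KummerHecke1Statement :=
  kummerHecke1_of_degC Fermat.Agent.H69.ES1.degC1

/-- **ES1-C-BRIDGE1**, unconditional. -/
theorem kummerBridge1U : KummerBridge1Statement :=
  kummerBridge1_of_degC Fermat.Agent.H69.ES1.degC1

/-- **ES1-EIG** (row 582), unconditional: the eigen-system of a normalised weight-2 eigenform
on `Γ₁(M)` modulo `φ` occurs in `k ⊗ J₁(M)[ℓ]`. -/
theorem j1Eigen : J1EigenStatement :=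
  j1Eigen_of_degC Fermat.Agent.H69.ES1.degC1

end Fermat.Agent.H21.Es1C

end
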