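import Fermat.Agent.H21.Es1C.Final
import Fermat.Agent.H12.Es1C.PerA
import Fermat.Agent.H47.Es1C.PeriodLinear
import Fermat.Agent.H1.ES1.PeriodParabolic1
import Fermat.Agent.H38.Es1C.PeriodTransfer
import Fermat.Agent.H17.Es1C.PeriodInj
import Fermat.Agent.H6.ES1C.FormsFinal
import Fermat.Agent.H6.ES1C.KummerDiamond
import Fermat.Agent.H80.ES1.DiamondRep
import Fermat.Agent.H12.Es1C.KummerHecke1
import Fermat.Agent.H29.ES1.Descent1Final
import Fermat.Agent.H32.Es1C.NormRep1Final

/-!
# P-ES1 / ES1-C (helper21): wiring of block ES1-C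

All the inputs of the block are landed except the degree equality of row ES1-C-DEGC
(`Fermat.Agent.H32.Es1C.DegC1Statement`).  This file wires:

* `cohEigen1 : CohEigen1Statement` (unconditional);
* `kummerDiamond1U : KummerDiamond1Statement` (unconditional);
* `kummerHecke1_of_degC`, `kummerBridge1_of_degC`;
* `j1Eigen_of_degC : DegC1Statement → J1EigenStatement`.
-/

set_option autoImplicit false

noncomputable section

open ModularCurve ModularCurve.Period AlgebraicCurve CongruenceSubgroup

namespace Fermat.Agent.H21.Es1C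

open Fermat.Agent.H29.ES1 Fermat.Agent.H20.DS Fermat.Agent.H21 Fermat.Agent.H21.EsC

/-- **COH-EIG1**, unconditional. -/
theorem cohEigen1 : CohEigen1Statement :=
  cohEigen1_of_parts
    (Fermat.Agent.H47.Es1C.periodLinear1 Fermat.Agent.H12.Es1C.existsPrimitive1)
    Fermat.Agent.H1.ES1.periodParabolic1
    (Fermat.Agent.H38.Es1C.periodTransfer1 Fermat.Agent.H12.Es1C.existsPrimitive1)
    (Fermat.Agent.H17.Es1C.periodInjective1 Fermat.Agent.H12.Es1C.existsPrimitive1)
    Fermat.Agent.H6.ES1C.formsSideStatement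

/-- **ES1-C-VFUN**: the generic function statement (smallest available closure). -/
theorem vFunU : VFunStatement :=
  Fermat.Agent.H99.ES1.vFunStatement Fermat.Agent.H60.latSumStatement
    Fermat.Agent.H87.ES1.latSumQExp

/-- **ES1-C-DREP**, unconditional. -/
theorem diamondRep1U : DiamondRep1Statement :=
  Fermat.Agent.H80.ES1.diamondRep1 vFunU

/-- **ES1-C-KD**, unconditional. -/
theorem kummerDiamond1U : KummerDiamond1Statement :=
  Fermat.Agent.H6.ES1C.kummerDiamond1 diamondRep1U

/-- **ES1-C-KH**, given the degree equality. -/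
theorem kummerHecke1_of_degC (hDeg : Fermat.Agent.H32.Es1C.DegC1Statement) :
    KummerHecke1Statement :=
  Fermat.Agent.H12.Es1C.kummerHecke1_of_parts (Fermat.Agent.H32.Es1C.normRep1 hDeg)
    (fun M _ hM p _ _ _ => Fermat.Agent.H29.ES1.heckeInputs1 ℂ M (by omega) p)
    (fun M _ _ p _ hp hpM => by
      haveI : Fact p.Prime := ⟨hp⟩
      exact rewritingU1 M p hpM)

/-- **ES1-C-BRIDGE1**, given the degree equality. -/
theorem kummerBridge1_of_degC (hDeg : Fermat.Agent.H32.Es1C.DegC1Statement) :
    KummerBridge1Statement :=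
  kummerBridge1_of_parts Fermat.Agent.H32.Es1C.model1Modular (kummerHecke1_of_degC hDeg)
    kummerDiamond1U Fermat.Agent.H29.ES1.descent1Statement

/-- **ES1-EIG** (row 582), given only the degree equality of row ES1-C-DEGC. -/
theorem j1Eigen_of_degC (hDeg : Fermat.Agent.H32.Es1C.DegC1Statement) : J1EigenStatement :=
  j1Eigen_of_parts cohEigen1 (kummerBridge1_of_degC hDeg)

end Fermat.Agent.H21.Es1C

end
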